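import Fermat.Agent.SS.Z1.Normal

/-!
# SS / (Z1): change of chart `t ↦ (t - c)⁻¹`
-/

set_option autoImplicit false
set_option linter.unusedSectionVars false
noncomputable section
open Polynomial

namespace Fermat.Agent.SS

open Fermat.Agent.RED.Gauss

section Reflect

variable {K E : Type*} [Field K] [CommRing E] [Algebra K E]

theorem aeval_mul_pow_eq_aeval_reflect {y y' : E} (h : y * y' = 1) {p : K[X]} {D : ℕ}
    (hp : p.natDegree ≤ D) : aeval y' p * y ^ D = aeval y (reflect D p) := by
  letI : Invertible y' := ⟨y, h, by rw [mul_comm]; exact h⟩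
  have h1 := eval₂_reflect_mul_pow (algebraMap K E) y' D p hp
  have h2 : (⅟y' : E) = y := rfl
  rw [h2] at h1
  rw [aeval_def, aeval_def, ← h1, mul_assoc, ← mul_pow, mul_comm y' y, h, one_pow, mul_one]

/-- `p(X) ↦ (X - c)^D p(1/(X - c))` -/
def tauP (c : K) (D : ℕ) (p : K[X]) : K[X] := (reflect D p).comp (X - C c)

/-- `p(X) ↦ X^D p(c + 1/X)` -/
def sigP (c : K) (D : ℕ) (p : K[X]) : K[X] := reflect D (p.comp (X + C c))

theorem comp_sub_C_eq_zero_iff (c : K) (p : K[X]) : p.comp (X - C c) = 0 ↔ p = 0 := by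
  constructor
  · intro h
    have := congrArg (fun q => q.comp (X + C c)) h
    simpa [comp_assoc] using this
  · rintro rfl; simp

theorem comp_add_C_eq_zero_iff (c : K) (p : K[X]) : p.comp (X + C c) = 0 ↔ p = 0 := by
  constructor
  · intro h
    have := congrArg (fun q => q.comp (X - C c)) h
    simpa [comp_assoc] using this
  · rintro rfl; simp

theorem tauP_eq_zero_iff (c : K) (D : ℕ) (p : K[X]) : tauP c D p = 0 ↔ p = 0 := by
  rw [tauP, comp_sub_C_eq_zero_iff, reflect_eq_zero_iff]

theorem sigP_eq_zero_iff (c : K) (D : ℕ) (p : K[X]) : sigP c D p = 0 ↔ p = 0 := by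
  rw [sigP, reflect_eq_zero_iff, comp_add_C_eq_zero_iff]

theorem aeval_tauP {x x' : E} {c : K} (h : (x - algebraMap K E c) * x' = 1) {p : K[X]} {D : ℕ}
    (hp : p.natDegree ≤ D) :
    aeval x' p * (x - algebraMap K E c) ^ D = aeval x (tauP c D p) := by
  rw [aeval_mul_pow_eq_aeval_reflect h hp, tauP, aeval_comp, map_sub, aeval_X, aeval_C]

theorem aeval_sigP {x x' : E} {c : K} (h : (x - algebraMap K E c) * x' = 1) {p : K[X]} {D : ℕ}
    (hp : p.natDegree ≤ D) : aeval x p * x' ^ D = aeval x' (sigP c D p) := by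
  have h1 : aeval x p = aeval (x - algebraMap K E c) (p.comp (X + C c)) := by
    rw [aeval_comp, map_add, aeval_X, aeval_C, sub_add_cancel]
  have h2 : (p.comp (X + C c)).natDegree ≤ D := by
    rw [natDegree_comp, natDegree_X_add_C, mul_one]; exact hp
  rw [h1, sigP, aeval_mul_pow_eq_aeval_reflect (by rw [mul_comm]; exact h) h2]

end Reflect

variable {L : Type*} [Field L] {A : ValuationSubring L} {k : Type*} [Field k]
variable {π : A →+* k} {F : Type*} [Field F] [Algebra L F] {Λ : Type*} [CommRing Λ] [Algebra k Λ]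

namespace SemiRed

variable {R : SemiRed π F Λ} {ι : Type*} [Fintype ι] {t : F} {w : ι → F}

namespace IsOrtho

variable [Nontrivial Λ] (H : R.IsOrtho t w) (c : A)
include H

theorem sub_const_mem : t - algebraMap L F (c : L) ∈ R.O := R.O.sub_mem H.t_mem (R.const_mem c)

theorem rd_sub_const : R.rd (t - algebraMap L F (c : L)) = R.rd t - algebraMap k Λ (π c) := by
  rw [R.rd_sub H.t_mem (R.const_mem c), R.rd_const]

theorem isUnit_rd_sub_const : IsUnit (R.rd (t - algebraMap L F (c : L))) := by
  have := H.unit (X - C (π c)) (X_sub_C_ne_zero _)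
  rwa [map_sub, aeval_X, aeval_C, ← H.rd_sub_const c] at this

theorem sub_const_ne_zero : t - algebraMap L F (c : L) ≠ 0 :=
  R.ne_zero_of_isUnit_rd (H.isUnit_rd_sub_const c)

theorem inv_sub_const_mem : (t - algebraMap L F (c : L))⁻¹ ∈ R.O :=
  R.inv_mem' (H.sub_const_mem c) (H.isUnit_rd_sub_const c)

theorem rd_sub_mul_rd_inv :
    (R.rd t - algebraMap k Λ (π c)) * R.rd (t - algebraMap L F (c : L))⁻¹ = 1 := by
  rw [← H.rd_sub_const c, mul_comm]
  exact R.rd_inv_mul (H.sub_const_mem c) (H.isUnit_rd_sub_const c)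

/-- the orthonormal family in the chart `(t - c)⁻¹` -/
theorem inv_sub_const : R.IsOrtho (t - algebraMap L F (c : L))⁻¹ w where
  surj := H.surj
  t_mem := H.inv_sub_const_mem c
  w_mem := H.w_mem
  unit := by
    intro p hp
    have h1 := aeval_tauP (H.rd_sub_mul_rd_inv c) (le_refl p.natDegree)
    have h2 := H.unit (tauP (π c) p.natDegree p) (by rwa [Ne, tauP_eq_zero_iff])
    rw [← h1] at h2
    exact isUnit_of_mul_isUnit_left h2
  indep := by
    intro f hf i
    set D := Finset.univ.sup fun i => (f i).natDegree with hD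
    have hdeg : ∀ i, (f i).natDegree ≤ D := fun i =>
      Finset.le_sup (f := fun i => (f i).natDegree) (Finset.mem_univ i)
    have h1 : ∑ i, aeval (R.rd t) (tauP (π c) D (f i)) * R.rd (w i) = 0 := by
      have h2 := congrArg (fun z => z * (R.rd t - algebraMap k Λ (π c)) ^ D) hf
      simp only [zero_mul, Finset.sum_mul] at h2
      rw [← h2]
      refine Finset.sum_congr rfl fun i _ => ?_
      rw [← aeval_tauP (H.rd_sub_mul_rd_inv c) (hdeg i)]
      ring
    exact (tauP_eq_zero_iff _ _ _).mp (H.indep _ h1 i)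

end IsOrtho

namespace IsON

variable [Nontrivial Λ] (H : R.IsON t w) (c : A)
include H

/-- the orthonormal basis in the chart `(t - c)⁻¹` -/
theorem inv_sub_const : R.IsON (t - algebraMap L F (c : L))⁻¹ w :=
  { H.toIsOrtho.inv_sub_const c with
    span := by
      intro y
      obtain ⟨g, f, hg, hgf⟩ := H.span y
      set D := max g.natDegree (Finset.univ.sup fun i => (f i).natDegree) with hD
      have hdeg : ∀ i, (f i).natDegree ≤ D := fun i =>
        (Finset.le_sup (f := fun i => (f i).natDegree) (Finset.mem_univ i)).trans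
          (le_max_right _ _)
      have hinv : (t - algebraMap L F (c : L)) * (t - algebraMap L F (c : L))⁻¹ = 1 :=
        mul_inv_cancel₀ (H.toIsOrtho.sub_const_ne_zero c)
      refine ⟨sigP (c : L) D g, fun i => sigP (c : L) D (f i), by rwa [Ne, sigP_eq_zero_iff], ?_⟩
      rw [← aeval_sigP hinv (le_max_left _ _)]
      have h2 := congrArg (fun z => z * ((t - algebraMap L F (c : L))⁻¹) ^ D) hgf
      simp only [Finset.sum_mul] at h2
      rw [mul_right_comm, h2]
      refine Finset.sum_congr rfl fun i _ => ?_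
      rw [← aeval_sigP hinv (hdeg i)]
      ring }

end IsON

end SemiRed

end Fermat.Agent.SS
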