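import Fermat.Agent.SS.Z1.Normal
import Fermat.Agent.RED.DRH.Model

/-!
# SS / (Z1): integrality descends: `z ∈ O` integral over `L[t]` is integral over `A[t]`
-/

set_option autoImplicit false
set_option linter.unusedSectionVars false
set_option linter.style.haveILetI false
noncomputable section
open Polynomial IntermediateField

namespace Fermat.Agent.SS

open Fermat.Agent.RED.Gauss Fermat.Agent.RED.DRH

variable {L : Type*} [Field L] {A : ValuationSubring L} {k : Type*} [Field k]
variable {π : A →+* k} {F : Type*} [Field F] [Algebra L F] {Λ : Type*} [CommRing Λ] [Algebra k Λ]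

namespace SemiRed

variable {R : SemiRed π F Λ} {ι : Type*} [Fintype ι] {t : F} {w : ι → F}

/-- `A[X] → F`, `X ↦ t` -/
def evFHom (A : ValuationSubring L) (t : F) : A[X] →+* F :=
  (aeval t : L[X] →ₐ[L] F).toRingHom.comp (mapRingHom A.subtype)

theorem evFHom_apply (t : F) (p : A[X]) : evFHom A t p = evF t p := rfl

/-- reduction of a polynomial relation -/
theorem rd_eval₂ (R : SemiRed π F Λ) {t z : F} (ht : t ∈ R.O) (hz : z ∈ R.O) (Q : A[X][X]) :
    R.rd (eval₂ (evFHom A t) z Q) =
      eval₂ (aeval (R.rd t) : k[X] →ₐ[k] Λ).toRingHom (R.rd z) (Q.map (mapRingHom π)) := by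
  rw [eval₂_map, eval₂_eq_sum_range, eval₂_eq_sum_range,
    R.rd_sum _ (fun i => evFHom A t (Q.coeff i) * z ^ i)
      fun i _ => R.O.mul_mem (R.evF_mem ht _) (R.O.pow_mem hz i)]
  refine Finset.sum_congr rfl fun i _ => ?_
  rw [evFHom_apply, R.rd_mul (R.evF_mem ht _) (R.O.pow_mem hz i), R.rd_evF ht, R.rd_pow hz]
  rfl

theorem isIntegralElem_rd_of_monic (R : SemiRed π F Λ) {t z : F} (ht : t ∈ R.O) (hz : z ∈ R.O)
    {Q : A[X][X]} (hQ : Q.Monic) (h0 : eval₂ (evFHom A t) z Q = 0) :
    (aeval (R.rd t) : k[X] →ₐ[k] Λ).toRingHom.IsIntegralElem (R.rd z) :=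
  ⟨Q.map (mapRingHom π), hQ.map _, by rw [← R.rd_eval₂ ht hz, h0, R.rd_zero]⟩

namespace IsOrtho

variable [Nontrivial Λ] (H : R.IsOrtho t w)
include H

theorem inv_evF_mem {P : A[X]} (hP : P.map π ≠ 0) : (evF t P)⁻¹ ∈ R.O :=
  R.inv_mem' (R.evF_mem H.t_mem P) (H.isUnit_rd_evF hP)

theorem aeval_div_mem_or (g h : L[X]) :
    aeval t g / aeval t h ∈ R.O ∨ (aeval t g / aeval t h)⁻¹ ∈ R.O := by
  rcases eq_or_ne g 0 with rfl | hg
  · left; rw [map_zero, zero_div]; exact R.O.zero_mem
  rcases eq_or_ne h 0 with rfl | hh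
  · left; rw [map_zero, div_zero]; exact R.O.zero_mem
  obtain ⟨c₁, P₁, hc₁, hP₁, e₁⟩ := exists_norm_poly π t hg
  obtain ⟨c₂, P₂, hc₂, hP₂, e₂⟩ := exists_norm_poly π t hh
  rcases A.mem_or_inv_mem (c₁ / c₂) with hc | hc
  · left
    have : aeval t g / aeval t h =
        algebraMap L F ((⟨c₁ / c₂, hc⟩ : A) : L) * (evF t P₁ * (evF t P₂)⁻¹) := by
      rw [e₁, e₂, map_div₀]; field_simp
    rw [this]
    exact R.O.mul_mem (R.const_mem _) (R.O.mul_mem (R.evF_mem H.t_mem _) (H.inv_evF_mem hP₂))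
  · right
    have : (aeval t g / aeval t h)⁻¹ =
        algebraMap L F ((⟨(c₁ / c₂)⁻¹, hc⟩ : A) : L) * (evF t P₂ * (evF t P₁)⁻¹) := by
      rw [e₁, e₂, map_inv₀, map_div₀]; field_simp
    rw [this]
    exact R.O.mul_mem (R.const_mem _) (R.O.mul_mem (R.evF_mem H.t_mem _) (H.inv_evF_mem hP₁))

/-- `L[t] ∩ O = A[t]` -/
theorem mem_lifts_of_aeval_mem {u : L[X]} (hu : aeval t u ∈ R.O) : u ∈ lifts A.subtype := by
  rcases eq_or_ne u 0 with rfl | hu0
  · exact Subsemiring.zero_mem _
  obtain ⟨c, P, hc, hP, e⟩ := exists_norm_poly π t hu0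
  have hcA : c ∈ A := (mem_O_iff_of_scale H.surj (R.evF_mem H.t_mem P)
    (H.isUnit_rd_evF hP).ne_zero e).mp hu
  have h1 : u = C c * P.map A.subtype := by
    have hinj := (transcendental_iff_injective.mp H.transcendental)
    apply hinj
    rw [e, map_mul, aeval_C]; rfl
  rw [h1, mem_lifts]
  exact ⟨C ⟨c, hcA⟩ * P, by rw [Polynomial.map_mul, Polynomial.map_C]; rfl⟩

end IsOrtho

namespace IsON

variable [Nontrivial Λ] (H : R.IsON t w)
include H

/-- **integrality descends** from `L[t]` to `A[t]` on `O`. -/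
theorem exists_monic_of_isIntegralElem {z : F} (hz : z ∈ R.O)
    (hint : (aeval t : L[X] →ₐ[L] F).toRingHom.IsIntegralElem z) :
    ∃ Q : A[X][X], Q.Monic ∧ eval₂ (evFHom A t) z Q = 0 := by
  have ht := H.toIsOrtho.transcendental
  letI := ratAlgebra ht
  letI := polyAlgebra L t
  haveI := isScalarTower_poly_rat ht
  have hmapP : ∀ p : L[X], algebraMap (RatFunc L) F (algebraMap L[X] (RatFunc L) p) = aeval t p :=
    fun p => (IsScalarTower.algebraMap_apply L[X] (RatFunc L) F p).symm
  -- the Gauss valuation ring of `L(t)`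
  let G : ValuationSubring (RatFunc L) :=
    { R.O.comap (algebraMap (RatFunc L) F) with
      mem_or_inv_mem' := by
        intro r
        have hr : algebraMap (RatFunc L) F r = aeval t r.num / aeval t r.denom := by
          conv_lhs => rw [← RatFunc.num_div_denom r]
          rw [map_div₀, hmapP, hmapP]
        rcases H.toIsOrtho.aeval_div_mem_or r.num r.denom with h | h
        · left
          show algebraMap (RatFunc L) F r ∈ R.O
          rw [hr]; exact h
        · right
          show algebraMap (RatFunc L) F r⁻¹ ∈ R.O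
          rw [map_inv₀, hr]; exact h }
  have hG : ∀ r : RatFunc L, r ∈ G ↔ algebraMap (RatFunc L) F r ∈ R.O := fun r => Iff.rfl
  letI : Algebra G F := ((algebraMap (RatFunc L) F).comp G.subtype).toAlgebra
  haveI : IsScalarTower G (RatFunc L) F := IsScalarTower.of_algebraMap_eq fun _ => rfl
  have hsm : ∀ (r : G) (y : F), r • y = algebraMap (RatFunc L) F (r : RatFunc L) * y :=
    fun r y => by rw [Algebra.smul_def]; rfl
  -- `O` is the `G`-span of `w`
  let N : Submodule G F := Submodule.span G (Set.range w)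
  have hNO : ∀ y ∈ N, y ∈ R.O := by
    intro y hy
    induction hy using Submodule.span_induction with
    | mem x hx => obtain ⟨i, rfl⟩ := hx; exact H.w_mem i
    | zero => exact R.O.zero_mem
    | add x y _ _ hx hy => exact R.O.add_mem hx hy
    | smul r x _ hx => rw [hsm]; exact R.O.mul_mem r.2 hx
  have hON : ∀ y ∈ R.O, y ∈ N := by
    intro y hy
    rcases eq_or_ne y 0 with rfl | hy0
    · exact N.zero_mem
    obtain ⟨c, y', P, p, hc, hP, hp, h1, h2⟩ := H.exists_normalForm' hy0
    have hz' := R.cmb_mem H.t_mem H.w_mem p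
    have hy' : y' ∈ R.O := H.toIsOrtho.mem_of_mul_evF_eq hP hz' h2
    have hr' : R.rd y' ≠ 0 := by
      intro h0
      have := H.toIsOrtho.rd_mul_aeval_eq hP hz' h2
      rw [h0, zero_mul] at this
      exact H.toIsOrtho.rd_cmb_ne_zero hp this.symm
    have hcA : c ∈ A := (mem_O_iff_of_scale H.surj hy' hr' h1).mp hy
    have hP0 := H.toIsOrtho.evF_ne_zero hP
    let ρ : ι → RatFunc L := fun i =>
      algebraMap L[X] (RatFunc L) (C c * (p i).map A.subtype) /
        algebraMap L[X] (RatFunc L) (P.map A.subtype)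
    have hρ : ∀ i, algebraMap (RatFunc L) F (ρ i) =
        algebraMap L F c * (evF t (p i) * (evF t P)⁻¹) := by
      intro i
      simp only [ρ]
      rw [map_div₀, hmapP, hmapP, map_mul, aeval_C, div_eq_mul_inv, mul_assoc]
      rfl
    have hρG : ∀ i, ρ i ∈ G := by
      intro i
      rw [hG, hρ]
      exact R.O.mul_mem (R.const_mem ⟨c, hcA⟩)
        (R.O.mul_mem (R.evF_mem H.t_mem _) (H.toIsOrtho.inv_evF_mem hP))
    have hy2 : y = ∑ i, (⟨ρ i, hρG i⟩ : G) • w i := by
      have h3 : y' = cmb t w p * (evF t P)⁻¹ := by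
        rw [← h2, mul_assoc, mul_inv_cancel₀ hP0, mul_one]
      rw [h1, h3, cmb, Finset.sum_mul, Finset.mul_sum]
      refine Finset.sum_congr rfl fun i _ => ?_
      rw [hsm, hρ]
      ring
    rw [hy2]
    exact N.sum_mem fun i _ => N.smul_mem _ (Submodule.subset_span ⟨i, rfl⟩)
  have hz2 : IsIntegral G z := by
    refine isIntegral_of_smul_mem_submodule N ?_ (Submodule.fg_span (Set.finite_range w)) z ?_
    · intro hbot
      have h1 : (1 : F) ∈ N := hON 1 R.O.one_mem
      rw [hbot, Submodule.mem_bot] at h1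
      exact one_ne_zero h1
    · intro n hn
      exact hON _ (R.O.mul_mem hz (hNO n hn))
  have hz1 : IsIntegral L[X] z := hint
  have e1 := minpoly.isIntegrallyClosed_eq_field_fractions' (RatFunc L) hz1
  have e2 := minpoly.isIntegrallyClosed_eq_field_fractions' (RatFunc L) hz2
  have hcoeff : ∀ m, (minpoly L[X] z).coeff m ∈ lifts A.subtype := by
    intro m
    apply H.toIsOrtho.mem_lifts_of_aeval_mem
    rw [← hmapP, ← coeff_map, ← e1, e2, coeff_map]
    exact ((minpoly G z).coeff m).2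
  have hl : minpoly L[X] z ∈ lifts (mapRingHom A.subtype) := by
    rw [lifts_iff_coeff_lifts]
    intro m
    obtain ⟨q, hq⟩ := (mem_lifts _).mp (hcoeff m)
    exact ⟨q, hq⟩
  obtain ⟨Q, hQ, -, hQm⟩ := lifts_and_natDegree_eq_and_monic hl (minpoly.monic hz1)
  refine ⟨Q, hQm, ?_⟩
  rw [evFHom, ← eval₂_map, hQ]
  exact minpoly.aeval L[X] z

/-- the reduction of an element of `O` which is integral over `L[t]` is integral over `k[t̄]` -/
theorem isIntegralElem_rd {z : F} (hz : z ∈ R.O)
    (hint : (aeval t : L[X] →ₐ[L] F).toRingHom.IsIntegralElem z) :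
    (aeval (R.rd t) : k[X] →ₐ[k] Λ).toRingHom.IsIntegralElem (R.rd z) := by
  obtain ⟨Q, hQ, h0⟩ := H.exists_monic_of_isIntegralElem hz hint
  exact R.isIntegralElem_rd_of_monic H.t_mem hz hQ h0

end IsON

end SemiRed

end Fermat.Agent.SS
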