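import Fermat.Agent.SS.Z1.PoleDict
import Fermat.Agent.SS.Z1.Integral
import Fermat.Agent.SS.Z1.Chart

/-!
# SS / (Z1): pole bounds for the reduction (abstract form)
-/

set_option autoImplicit false
set_option linter.unusedSectionVars false
noncomputable section
open Polynomial AlgebraicCurve

namespace Fermat.Agent.SS

open Fermat.Agent.RED Fermat.Agent.S24

variable {L : Type*} [Field L] {A : ValuationSubring L} {k : Type*} [Field k]
variable {π : A →+* k} {F : Type*} [Field F] [Algebra L F] {Λ : Type*} [CommRing Λ] [Algebra k Λ]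
variable {Fb : Type*} [Field Fb] [Algebra k Fb]

namespace SemiRed

variable {R : SemiRed π F Λ} {ι : Type*} [Fintype ι] {x : F} {w : ι → F}

/-- **pole bounds**: `u ∈ L(a (x)_∞ + b (x - c)_0) ∩ O` reduces, on every component `φ`, into
`L(a (x̄)_∞ + b (x̄ - c̄)_0)`. -/
theorem IsON.pole_comp [Nontrivial Λ] (H : R.IsON x w) (φ : Λ →ₐ[k] Fb) {x₀ : F}
    (hx₀ : IsSepParam L x₀) {t₀ : Fb} (ht₀ : IsSepParam k t₀) (c : A) (a b : ℕ) {u : F}
    (hu : u ∈ R.O)
    (hL : u ∈ riemannRochSpace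
      (a • polarDiv L x + b • polarDiv L (x - algebraMap L F (c : L))⁻¹)) :
    φ (R.rd u) ∈ riemannRochSpace
      (a • polarDiv k (φ (R.rd x)) + b • polarDiv k (φ (R.rd x) - algebraMap k Fb (π c))⁻¹) := by
  have hy0 := H.toIsOrtho.sub_const_ne_zero c
  have hyO := H.toIsOrtho.sub_const_mem c
  have hyiO := H.toIsOrtho.inv_sub_const_mem c
  obtain ⟨I1, I2⟩ := (mem_L_chart_iff hx₀ x (c : L) hy0 a b u).mp hL
  have J1 := isIntegralElem_map φ (H.isIntegralElem_rd (R.O.mul_mem hu (R.O.pow_mem hyO b)) I1)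
  have J2 := isIntegralElem_map φ
    ((H.inv_sub_const c).isIntegralElem_rd (R.O.mul_mem hu (R.O.pow_mem hyiO a)) I2)
  have h1 := congrArg φ (H.toIsOrtho.rd_sub_mul_rd_inv c)
  rw [map_mul, map_sub, map_one, AlgHom.commutes] at h1
  have hne : φ (R.rd x) - algebraMap k Fb (π c) ≠ 0 := left_ne_zero_of_mul_eq_one h1
  have hinv : φ (R.rd (x - algebraMap L F (c : L))⁻¹) =
      (φ (R.rd x) - algebraMap k Fb (π c))⁻¹ := eq_inv_of_mul_eq_one_right h1
  rw [R.rd_mul hu (R.O.pow_mem hyO b), R.rd_pow hyO, H.toIsOrtho.rd_sub_const c, map_mul, map_pow,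
    map_sub, AlgHom.commutes] at J1
  rw [R.rd_mul hu (R.O.pow_mem hyiO a), R.rd_pow hyiO, map_mul, map_pow, hinv] at J2
  exact (mem_L_chart_iff ht₀ (φ (R.rd x)) (π c) hne a b (φ (R.rd u))).mpr ⟨J1, J2⟩

/-- the case `b = 0` -/
theorem IsON.pole_comp₀ [Nontrivial Λ] (H : R.IsON x w) (φ : Λ →ₐ[k] Fb) {x₀ : F}
    (hx₀ : IsSepParam L x₀) {t₀ : Fb} (ht₀ : IsSepParam k t₀) (a : ℕ) {u : F}
    (hu : u ∈ R.O) (hL : u ∈ riemannRochSpace (a • polarDiv L x)) :
    φ (R.rd u) ∈ riemannRochSpace (a • polarDiv k (φ (R.rd x))) := by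
  have := H.pole_comp φ hx₀ ht₀ 0 a 0 hu (by rwa [zero_smul, add_zero])
  rwa [zero_smul, add_zero] at this

end SemiRed

end Fermat.Agent.SS
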