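import Fermat.Agent.SS.Z1.LevelTwo
import Fermat.Agent.SS.Z1.Pole

/-!
# SS / (Z1): the swap `w_q` is an involution exchanging the two components; the chart `j(qτ)`
-/

set_option autoImplicit false
set_option linter.unusedSectionVars false
set_option linter.style.haveILetI false
noncomputable section
open Polynomial ModularCurve IntermediateField AlgebraicCurve

namespace Fermat.Agent.SS

open Fermat.Agent.RED Fermat.Agent.RED.Gauss Fermat.Agent.S24 Fermat.Agent.S28
open Fermat.Agent.RED.Cusp (Fb jb)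

section Abstract

variable {L : Type*} [Field L] {A : ValuationSubring L} {k : Type*} [Field k]
variable {π : A →+* k} {F : Type*} [Field F] [Algebra L F] {Λ : Type*} [CommRing Λ] [Algebra k Λ]
variable {R : SemiRed π F Λ} {ι : Type*} [Fintype ι] {t : F} {w : ι → F}

/-- transport of an orthonormal basis by an automorphism compatible with the reduction -/
theorem SemiRed.IsON.map (H : R.IsON t w) (σ : F →ₐ[L] F) (hσ : Function.Surjective σ)
    (θ : Λ →ₐ[k] Λ) (hθ : Function.Injective θ) (hO : ∀ y ∈ R.O, σ y ∈ R.O)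
    (hrd : ∀ y ∈ R.O, R.rd (σ y) = θ (R.rd y)) : R.IsON (σ t) (fun i => σ (w i)) where
  surj := H.surj
  t_mem := hO _ H.t_mem
  w_mem := fun i => hO _ (H.w_mem i)
  unit := by
    intro p hp
    rw [hrd _ H.t_mem, aeval_algHom_apply]
    exact (H.unit p hp).map θ
  indep := by
    intro f hf
    apply H.indep
    apply hθ
    rw [map_zero, ← hf, map_sum]
    refine Finset.sum_congr rfl fun i _ => ?_
    rw [map_mul, hrd _ H.t_mem, hrd _ (H.w_mem i), aeval_algHom_apply]
  span := by
    intro y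
    obtain ⟨y', rfl⟩ := hσ y
    obtain ⟨g, f, hg, hgf⟩ := H.span y'
    refine ⟨g, f, hg, ?_⟩
    have := congrArg σ hgf
    rw [map_mul, map_sum] at this
    rw [aeval_algHom_apply, this]
    refine Finset.sum_congr rfl fun i _ => ?_
    rw [map_mul, aeval_algHom_apply]

end Abstract

variable {M q : ℕ} [NeZero M] [hq : Fact q.Prime] (hqM : ¬ q ∣ M)

/-- `w_q` is an involution -/
theorem swAlg_swAlg (y : FN (M * q)) : swAlg M q hqM (swAlg M q hqM y) = y := by
  have key : ((swAlg M q hqM : FN (M * q) →+* FN (M * q)).comp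
      (swAlg M q hqM : FN (M * q) →+* FN (M * q))) = RingHom.id _ := by
    apply ringHom_ext_bar
    · intro a
      simp only [RingHom.comp_apply, RingHom.coe_coe, AlgHom.commutes, RingHom.id_apply]
    · intro D _ hD
      simp only [RingHom.comp_apply, RingHom.coe_coe, RingHom.id_apply]
      by_cases hqD : q ∣ D
      · obtain ⟨d, rfl⟩ := hqD
        have hd : d ∣ M := by
          rw [mul_comm M q] at hD
          exact Nat.dvd_of_mul_dvd_mul_left hq.out.pos hD
        have : NeZero d := ⟨fun h0 => NeZero.ne (q * d) (by rw [h0, mul_zero])⟩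
        have e : jBar (M * q) (q * d) hD = heckeBetaBar Kb M q (jBar M d hd) :=
          (RED.ES.heckeBetaBar_jBar M q d hd).symm
        rw [e, swAlg_beta, swAlg_alpha]
      · have hd : D ∣ M :=
          (Nat.Coprime.dvd_of_dvd_mul_right
            ((Nat.Prime.coprime_iff_not_dvd hq.out).mpr hqD).symm hD)
        have e : jBar (M * q) D hD = heckeAlphaBar Kb M q (jBar M D hd) :=
          (RED.ES.heckeAlphaBar_jBar M q D hd).symm
        rw [e, swAlg_alpha, swAlg_beta]
  exact congrArg (fun φ => φ y) key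

theorem swAlg_surjective : Function.Surjective (swAlg M q hqM) :=
  fun y => ⟨swAlg M q hqM y, swAlg_swAlg hqM y⟩

theorem emb₁_swAlg (y : FN (M * q)) : emb₁ M q (swAlg M q hqM y) = emb₂ M q hqM y := rfl

theorem emb₂_swAlg (y : FN (M * q)) : emb₂ M q hqM (swAlg M q hqM y) = emb₁ M q y := by
  rw [emb₂, AlgHom.comp_apply, swAlg_swAlg]

variable {A : ValuationSubring Kb} {k : Type*} [Field k]
variable (π : A →+* k) [CharP k q] [IsAlgClosed k] (hπ : Function.Surjective π)

theorem swAlg_mem {y : FN (M * q)} (hy : y ∈ (RR hqM π hπ).O) :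
    swAlg M q hqM y ∈ (RR hqM π hπ).O := by
  rw [mem_RR_O] at hy ⊢
  rw [emb₁_swAlg, emb₂_swAlg]
  exact ⟨hy.2, hy.1⟩

theorem rd_swAlg {y : FN (M * q)} (hy : y ∈ (RR hqM π hπ).O) :
    (RR hqM π hπ).rd (swAlg M q hqM y) = ((RR hqM π hπ).rd y).swap := by
  apply RR_rd_eq
  have hy' := swAlg_mem hqM π hπ hy
  rw [mem_RR_O] at hy hy'
  have e1 : (R₀ M q hqM π).rd (swAlg M q hqM y) = _ := ofEmb_rd hy'.1 hy'.2
  have e2 : (R₀ M q hqM π).rd y = _ := ofEmb_rd hy.1 hy.2
  rw [e1, Prod.fst_swap, Prod.snd_swap, coe_RR_rd_fst, coe_RR_rd_snd, e2]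
  exact Prod.ext (bigRed_congr π (emb₁_swAlg hqM y) _ _) (bigRed_congr π (emb₂_swAlg hqM y) _ _)

/-- the swap of the two factors -/
def swapAlg (k X : Type*) [CommSemiring k] [Semiring X] [Algebra k X] : X × X →ₐ[k] X × X :=
  AlgHom.prod (AlgHom.snd k X X) (AlgHom.fst k X X)

theorem swapAlg_apply {k X : Type*} [CommSemiring k] [Semiring X] [Algebra k X] (z : X × X) :
    swapAlg k X z = z.swap := rfl

/-- `j(qτ)` -/
def jF' (M q : ℕ) [NeZero M] [NeZero q] : FN (M * q) := heckeBetaBar Kb M q (jF M)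

theorem swAlg_jF : swAlg M q hqM (jF (M * q)) = jF' M q := by
  rw [← alpha_jF, swAlg_alpha]; rfl

theorem swAlg_jF' : swAlg M q hqM (jF' M q) = jF (M * q) := by
  rw [jF', swAlg_beta, alpha_jF]

/-- the orthonormal basis in the chart `j(qτ)` -/
theorem exists_isON' : ∃ w : Fin (dedekindPsi M) × Fin (q + 1) → FN (M * q),
    (RR hqM π hπ).IsON (jF' M q) w := by
  obtain ⟨w, H⟩ := exists_isON hqM π hπ
  refine ⟨fun i => swAlg M q hqM (w i), ?_⟩
  rw [← swAlg_jF hqM]
  refine H.map (swAlg M q hqM) (swAlg_surjective hqM) (swapAlg k (Fb k M)) ?_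
    (fun y hy => swAlg_mem hqM π hπ hy) (fun y hy => rd_swAlg hqM π hπ hy)
  intro a b hab
  exact Prod.swap_injective hab

theorem jF'_mem : jF' M q ∈ (RR hqM π hπ).O := by
  rw [← swAlg_jF hqM]; exact swAlg_mem hqM π hπ (jF_mem hqM π)

theorem rd_jF'' : (RR hqM π hπ).rd (jF' M q) = (jb k M ^ q, jb k M) := by
  rw [← swAlg_jF hqM, rd_swAlg hqM π hπ (jF_mem hqM π), rd_jF']
  rfl

end Fermat.Agent.SS
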