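import Fermat.Agent.SS.Z1.KronFields

/-!
# SS / (Z1) : the Kronecker datum of `X₀(M q)` modulo [CUSP-ORD] and [LIFT]

`kronData hqM π hπ cusp cusp' n₀ lift lift' : KronData (twoRed hqM π hπ) q`.
-/

set_option autoImplicit false

noncomputable section

open Polynomial ModularCurve IntermediateField AlgebraicCurve

namespace Fermat.Agent.SS

open Fermat.Agent.RED Fermat.Agent.RED.Gauss Fermat.Agent.S24 Fermat.Agent.S28
open Fermat.Agent.RED.Cusp (Fb jb)

variable {M q : ℕ} [NeZero M] [hq : Fact q.Prime] (hqM : ¬ q ∣ M)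
variable {A : ValuationSubring Kb} {k : Type*} [Field k]
variable (π : A →+* k) [CharP k q] [IsAlgClosed k] (hπ : Function.Surjective π)

/-- [CUSP-ORD], the statement (independent of the place of `ℚ̄`). -/
def CuspOrd (M q : ℕ) [NeZero M] [Fact q.Prime] : Prop :=
  polarDiv Kb (jF' M q) ≤ q • polarDiv Kb (jF (M * q)) ∧
    polarDiv Kb (jF (M * q)) ≤ q • polarDiv Kb (jF' M q)

/-- [LIFT], the statement. -/
def HasLift (n₀ : ℕ) : Prop :=
  (∀ (n : ℕ), n₀ ≤ n → ∀ (v : Fb k M), v ∈ riemannRochSpace (n • polarDiv k (jb k M)) →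
    ∃ u : (twoRed hqM π hπ).O,
      (u : FN (M * q)) ∈ riemannRochSpace (n • polarDiv Kb (jF (M * q))) ∧
        (twoRed hqM π hπ).red u = (v, FrAlg M q k v)) ∧
  (∀ (n : ℕ), n₀ ≤ n → ∀ (v : Fb k M), v ∈ riemannRochSpace (n • polarDiv k (jb k M)) →
    ∃ u : (twoRed hqM π hπ).O,
      (u : FN (M * q)) ∈ riemannRochSpace (n • polarDiv Kb (jF' M q)) ∧
        (twoRed hqM π hπ).red u = (FrAlg M q k v, v))

/-- The Kronecker datum of `X₀(M q)`. -/
def kronData (hc : CuspOrd M q) (n₀ : ℕ) (hl : HasLift hqM π hπ n₀) :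
    KronData (twoRed hqM π hπ) q where
  hq := hq.out.two_le
  j := jT hqM π hπ
  j' := jT' hqM π hπ
  t := jb k M
  red_j := red_jT hqM π hπ
  red_j' := red_jT' hqM π hπ
  sep_j := sep_jT hqM π hπ
  sep_t := sep_jb hqM
  cusp := hc.1
  cusp' := hc.2
  deg_j := deg_jT hqM π hπ
  deg_j' := deg_jT' hqM π hπ
  Fr := FrAlg M q k
  Fr_t := FrAlg_jb
  Fr_pow := FrAlg_pow
  Fr_mem := FrAlg_mem hqM
  n₀ := n₀
  lift := hl.1
  lift' := hl.2
  c := ((exists_centre π hπ).choose : Kb)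
  c_mem := by rw [twoRed_A]; exact (exists_centre π hπ).choose.2
  cb := π (exists_centre π hπ).choose
  red_c := red_const hqM π hπ _ _
  cb_ne := (exists_centre π hπ).choose_spec
  pole := pole_twoRed hqM π hπ _
  pole' := pole'_twoRed hqM π hπ
  on2 := twoRed_on2 hqM π hπ

@[simp] theorem kronData_Pj (hc : CuspOrd M q) (n₀ : ℕ) (hl : HasLift hqM π hπ n₀) :
    (kronData hqM π hπ hc n₀ hl).Pj = polarDiv Kb (jF (M * q)) := rfl

@[simp] theorem kronData_Pq (hc : CuspOrd M q) (n₀ : ℕ) (hl : HasLift hqM π hπ n₀) :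
    (kronData hqM π hπ hc n₀ hl).Pq = polarDiv Kb (jF' M q) := rfl

@[simp] theorem kronData_Pb (hc : CuspOrd M q) (n₀ : ℕ) (hl : HasLift hqM π hπ n₀) :
    (kronData hqM π hπ hc n₀ hl).Pb = polarDiv k (jb k M) := rfl

@[simp] theorem kronData_t (hc : CuspOrd M q) (n₀ : ℕ) (hl : HasLift hqM π hπ n₀) :
    (kronData hqM π hπ hc n₀ hl).t = jb k M := rfl

@[simp] theorem kronData_Fr (hc : CuspOrd M q) (n₀ : ℕ) (hl : HasLift hqM π hπ n₀) :
    (kronData hqM π hπ hc n₀ hl).Fr = FrAlg M q k := rfl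

end Fermat.Agent.SS
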