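import Mathlib

/-!
# SS/Z1: the Kronecker independence lemma (pure algebra)
-/

set_option autoImplicit false
open Polynomial

namespace Fermat.Agent.SS

section poly

variable {k : Type*} [Field k]

/-- coefficient of `expand q p * X ^ b` at `q * m + r`, `b, r < q`. -/
theorem coeff_expand_mul_X_pow {q : ℕ} (hq : 0 < q) (p : k[X]) {b r : ℕ} (hb : b < q) (hr : r < q)
    (m : ℕ) : (expand k q p * X ^ b).coeff (q * m + r) = if r = b then p.coeff m else 0 := by
  rw [coeff_mul_X_pow']
  split_ifs with h1 h2 h2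
  · subst h2
    rw [Nat.add_sub_cancel, mul_comm, coeff_expand_mul hq]
  · rw [coeff_expand hq, if_neg]
    intro hdvd
    apply h2
    obtain ⟨c, hc⟩ := hdvd
    have h3 : q * m + r = q * c + b := by omega
    have h4 := congrArg (· % q) h3
    simp only [Nat.mul_add_mod] at h4
    rwa [Nat.mod_eq_of_lt hr, Nat.mod_eq_of_lt hb] at h4
  · subst h2
    omega
  · rfl

/-- `1, X, …, X^(q-1)` are independent over `k[X^q]`. -/
theorem eq_zero_of_sum_expand {q : ℕ} (hq : 0 < q) (γ : Fin q → k[X])
    (h : ∑ b, expand k q (γ b) * X ^ (b : ℕ) = 0) : ∀ b, γ b = 0 := by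
  intro b
  ext m
  have h1 := congrArg (fun p => p.coeff (q * m + b)) h
  simp only [finsetSum_coeff, coeff_zero] at h1
  rw [Finset.sum_eq_single b] at h1
  · rw [coeff_expand_mul_X_pow hq _ b.2 b.2, if_pos rfl] at h1
    rw [h1, coeff_zero]
  · intro c _ hc
    rw [coeff_expand_mul_X_pow hq _ c.2 b.2, if_neg]
    intro hbc
    exact hc (Fin.ext hbc.symm)
  · intro hb; exact absurd (Finset.mem_univ _) hb

/-- the polynomial core of Kronecker's congruence `(X - j^q)(X^q - j)`. -/
theorem kron_poly {q : ℕ} (hq : 1 < q) (γ : Fin (q + 1) → k[X])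
    (h1 : ∑ b, γ b * X ^ (q * (b : ℕ)) = 0)
    (h2 : ∑ b, expand k q (γ b) * X ^ (b : ℕ) = 0) : ∀ b, γ b = 0 := by
  have hq0 : 0 < q := by omega
  -- regroup the second relation
  let δ : Fin q → k[X] := fun b => if (b : ℕ) = 0 then γ 0 + X * γ (Fin.last q) else γ b.castSucc
  have hδ : ∑ b, expand k q (δ b) * X ^ (b : ℕ) = 0 := by
    rw [Fin.sum_univ_castSucc] at h2
    rw [← h2]
    obtain ⟨q', rfl⟩ : ∃ q', q = q' + 1 := ⟨q - 1, by omega⟩
    rw [Fin.sum_univ_succ, Fin.sum_univ_succ (f := fun i : Fin (q' + 1) =>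
      expand k (q' + 1) (γ i.castSucc) * X ^ ((i.castSucc : Fin (q' + 1 + 1)) : ℕ))]
    have e0 : δ 0 = γ 0 + X * γ (Fin.last (q' + 1)) := by simp [δ]
    have es : ∀ i : Fin q', δ i.succ = γ i.succ.castSucc := by
      intro i; simp [δ]
    simp only [e0, es]
    simp only [Fin.val_zero, pow_zero, mul_one, Fin.castSucc_zero, Fin.val_last, map_add, map_mul,
      expand_X, Fin.val_castSucc]
    ring
  have hδ0 := eq_zero_of_sum_expand hq0 δ hδ
  have hmid : ∀ b : Fin q, (b : ℕ) ≠ 0 → γ b.castSucc = 0 := by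
    intro b hb
    have := hδ0 b
    simpa [δ, hb] using this
  have h00 : γ 0 + X * γ (Fin.last q) = 0 := by
    have := hδ0 ⟨0, hq0⟩
    simpa [δ] using this
  -- first relation
  rw [Fin.sum_univ_castSucc, Finset.sum_eq_single (⟨0, hq0⟩ : Fin q)] at h1
  · simp only [Fin.val_castSucc, mul_zero, pow_zero, mul_one, Fin.val_last] at h1
    have e : (Fin.castSucc (⟨0, hq0⟩ : Fin q)) = 0 := rfl
    rw [e] at h1
    have h3 : γ (Fin.last q) * (X ^ (q * q) - X) = 0 := by
      have : γ 0 = - (X * γ (Fin.last q)) := eq_neg_of_add_eq_zero_left h00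
      rw [this] at h1
      linear_combination h1
    have h4 : (X ^ (q * q) - X : k[X]) ≠ 0 := by
      intro h0
      have := congrArg (fun p => p.coeff 1) h0
      simp only [coeff_sub, coeff_X_pow, coeff_X_one, coeff_zero] at this
      rw [if_neg (by nlinarith)] at this
      simp at this
    have hlast : γ (Fin.last q) = 0 := (mul_eq_zero.1 h3).resolve_right h4
    have hzero : γ 0 = 0 := by rw [hlast, mul_zero, add_zero] at h00; exact h00
    intro b
    induction b using Fin.lastCases with
    | last => exact hlast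
    | cast b =>
      by_cases hb : (b : ℕ) = 0
      · have : b.castSucc = 0 := Fin.ext hb
        rw [this]; exact hzero
      · exact hmid b hb
  · intro b _ hb
    rw [hmid b (fun h => hb (Fin.ext h)), zero_mul]
  · intro h; exact absurd (Finset.mem_univ _) h

end poly

end Fermat.Agent.SS
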