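import Fermat.Agent.SS.Z1.Normal
import Fermat.Agent.SS.Z1.Kron

/-!
# SS / (Z1): restricting the target of a semi-local reduction; Kronecker independence in a ring
-/

set_option autoImplicit false
set_option linter.unusedSectionVars false
noncomputable section
open Polynomial

namespace Fermat.Agent.SS

open Fermat.Agent.RED.Gauss

section KronRing

variable {k E : Type*} [Field k] [CommRing E] [Algebra k E]

/-- **Kronecker independence.** -/
theorem kron_indep {q n : ℕ} (hq : 1 < q) (J U : E)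
    (h1 : ∀ g : Fin n → k[X], ∑ a, aeval J (g a) * U ^ (a : ℕ) = 0 → ∀ a, g a = 0)
    (h2 : ∀ g : Fin n → k[X], ∑ a, aeval J (g a) * (U ^ q) ^ (a : ℕ) = 0 → ∀ a, g a = 0)
    (f : Fin n × Fin (q + 1) → k[X])
    (e1 : ∑ x, aeval J (f x) * (U ^ (x.1 : ℕ) * (J ^ q) ^ (x.2 : ℕ)) = 0)
    (e2 : ∑ x, aeval (J ^ q) (f x) * ((U ^ q) ^ (x.1 : ℕ) * J ^ (x.2 : ℕ)) = 0) :
    ∀ x, f x = 0 := by
  have k1 : ∀ a, ∑ b, f (a, b) * X ^ (q * (b : ℕ)) = 0 := by
    apply h1
    rw [← e1, Fintype.sum_prod_type]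
    refine Finset.sum_congr rfl fun a _ => ?_
    rw [map_sum, Finset.sum_mul]
    refine Finset.sum_congr rfl fun b _ => ?_
    rw [map_mul, map_pow, aeval_X, pow_mul]
    ring
  have k2 : ∀ a, ∑ b, expand k q (f (a, b)) * X ^ (b : ℕ) = 0 := by
    apply h2
    rw [← e2, Fintype.sum_prod_type]
    refine Finset.sum_congr rfl fun a _ => ?_
    rw [map_sum, Finset.sum_mul]
    refine Finset.sum_congr rfl fun b _ => ?_
    rw [map_mul, map_pow, aeval_X, expand_aeval]
    ring
  rintro ⟨a, b⟩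
  exact kron_poly hq (fun b => f (a, b)) (k1 a) (k2 a) b

end KronRing

variable {L : Type*} [Field L] {A : ValuationSubring L} {k : Type*} [Field k]
variable {π : A →+* k} {F : Type*} [Field F] [Algebra L F] {Λ : Type*} [CommRing Λ] [Algebra k Λ]
variable {Λ' : Type*} [CommRing Λ'] [Algebra k Λ']

namespace SemiRed

/-- the reduction with values in a smaller ring -/
def pullRed (R : SemiRed π F Λ) (j : Λ' →ₐ[k] Λ) (hinj : Function.Injective j)
    (hr : ∀ x : R.O, R.red x ∈ j.range) : R.O →+* Λ' :=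
  ((AlgEquiv.ofInjective j hinj).symm : j.range →+* Λ').comp (R.red.codRestrict j.range hr)

theorem map_pullRed (R : SemiRed π F Λ) (j : Λ' →ₐ[k] Λ) (hinj : Function.Injective j)
    (hr : ∀ x : R.O, R.red x ∈ j.range) (x : R.O) : j (R.pullRed j hinj hr x) = R.red x := by
  have h := (AlgEquiv.ofInjective j hinj).apply_symm_apply (R.red.codRestrict j.range hr x)
  have h2 := congrArg Subtype.val h
  rw [AlgEquiv.ofInjective_apply] at h2
  exact h2

/-- restrict the target of the reduction -/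
def pull (R : SemiRed π F Λ) (j : Λ' →ₐ[k] Λ) (hinj : Function.Injective j)
    (hr : ∀ x : R.O, R.red x ∈ j.range) : SemiRed π F Λ' where
  O := R.O
  red := R.pullRed j hinj hr
  inv_mem := by
    intro x hx
    apply R.inv_mem x
    rw [← R.map_pullRed j hinj hr]
    exact hx.map j
  const_mem := R.const_mem
  red_const := by
    intro a
    apply hinj
    rw [R.map_pullRed j hinj hr, R.red_const, AlgHom.commutes]

variable (R : SemiRed π F Λ) (j : Λ' →ₐ[k] Λ) (hinj : Function.Injective j)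
    (hr : ∀ x : R.O, R.red x ∈ j.range)

@[simp] theorem pull_O : (R.pull j hinj hr).O = R.O := rfl

theorem map_pull_rd (y : F) : j ((R.pull j hinj hr).rd y) = R.rd y := by
  by_cases hy : y ∈ R.O
  · rw [R.rd_of_mem hy, (R.pull j hinj hr).rd_of_mem hy]
    exact R.map_pullRed j hinj hr ⟨y, hy⟩
  · have hy' : y ∉ (R.pull j hinj hr).O := hy
    rw [rd, rd, dif_neg hy, dif_neg hy', map_zero]

variable {R j} {ι : Type*} [Fintype ι] {t : F} {w : ι → F}

theorem IsOrtho.pull (H : R.IsOrtho t w) (hloc : ∀ z, IsUnit (j z) → IsUnit z) :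
    (R.pull j hinj hr).IsOrtho t w where
  surj := H.surj
  t_mem := H.t_mem
  w_mem := H.w_mem
  unit := by
    intro p hp
    apply hloc
    rw [← aeval_algHom_apply, map_pull_rd]
    exact H.unit p hp
  indep := by
    intro f hf
    apply H.indep
    have := congrArg j hf
    rw [map_zero, map_sum] at this
    rw [← this]
    refine Finset.sum_congr rfl fun i _ => ?_
    rw [map_mul, ← aeval_algHom_apply, map_pull_rd, map_pull_rd]

theorem IsON.pull (H : R.IsON t w) (hloc : ∀ z, IsUnit (j z) → IsUnit z) :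
    (R.pull j hinj hr).IsON t w :=
  { H.toIsOrtho.pull hinj hr hloc with span := H.span }

/-- the reduction takes its values in every `k`-subalgebra containing `t̄`, `w̄ i` and closed under
inverses -/
theorem IsON.red_mem_range [Nontrivial Λ] (H : R.IsON t w) (hloc : ∀ z, IsUnit (j z) → IsUnit z)
    (ht : R.rd t ∈ j.range) (hw : ∀ i, R.rd (w i) ∈ j.range) (x : R.O) : R.red x ∈ j.range := by
  rcases eq_or_ne (x : F) 0 with h0 | h0
  · have : x = 0 := Subtype.ext h0
    rw [this, map_zero]; exact j.range.zero_mem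
  obtain ⟨c, y', P, p, hc, hP, hp, h1, h2⟩ := H.exists_normalForm' h0
  have hz := R.cmb_mem H.t_mem H.w_mem p
  have hy' : y' ∈ R.O := H.toIsOrtho.mem_of_mul_evF_eq hP hz h2
  have h3 := H.toIsOrtho.rd_mul_aeval_eq hP hz h2
  have hr' : R.rd y' ≠ 0 := by
    intro h0
    rw [h0, zero_mul] at h3
    exact H.toIsOrtho.rd_cmb_ne_zero hp h3.symm
  have hcA : c ∈ A := (mem_O_iff_of_scale H.surj hy' hr' h1).mp x.2
  have hae : ∀ p : k[X], aeval (R.rd t) p ∈ j.range := by
    intro p
    obtain ⟨t₀, ht₀⟩ := ht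
    exact ⟨aeval t₀ p, by rw [← ht₀]; exact (aeval_algHom_apply j t₀ p).symm⟩
  have hcm : R.rd (cmb t w p) ∈ j.range := by
    rw [R.rd_cmb H.t_mem H.w_mem]
    exact j.range.sum_mem fun i _ => j.range.mul_mem (hae _) (hw i)
  obtain ⟨z, hz'⟩ := hae (P.map π)
  have hzu : IsUnit z := hloc z (by
    have : j z = aeval (R.rd t) (P.map π) := hz'
    rw [this]; exact H.unit _ hP)
  obtain ⟨v, rfl⟩ := hzu
  have hy'r : R.rd y' ∈ j.range := by
    have h4 : R.rd y' = R.rd (cmb t w p) * j ((v⁻¹ : Λ'ˣ) : Λ') := by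
      have h5 : j (v : Λ') = aeval (R.rd t) (P.map π) := hz'
      rw [← h3, ← h5, mul_assoc, ← map_mul, Units.mul_inv, map_one, mul_one]
    rw [h4]
    exact j.range.mul_mem hcm ⟨_, rfl⟩
  rw [← R.rd_coe, h1, R.rd_mul (R.const_mem ⟨c, hcA⟩) hy', R.rd_const]
  exact j.range.mul_mem (j.range.algebraMap_mem _) hy'r

end SemiRed

end Fermat.Agent.SS
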