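import Fermat.Agent.SS.Z1.Normal
import Fermat.Agent.RED.DRH.Model

/-!
# SS / (Z1): an orthonormal family of the right cardinality is an orthonormal basis
-/

set_option autoImplicit false
set_option linter.unusedSectionVars false
set_option linter.style.haveILetI false
noncomputable section
open Polynomial IntermediateField

namespace Fermat.Agent.SS

open Fermat.Agent.RED.Gauss Fermat.Agent.RED.DRH

variable {L : Type*} [Field L] {A : ValuationSubring L} {k : Type*} [Field k]
variable {π : A →+* k} {F : Type*} [Field F] [Algebra L F] {Λ : Type*} [CommRing Λ] [Algebra k Λ]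

namespace SemiRed

variable {R : SemiRed π F Λ} {ι : Type*} [Fintype ι] {t : F} {w : ι → F}

/-- purely algebraic: independence over `L[t]` + right cardinality ⇒ spanning with denominators -/
theorem span_of_card_eq_finrank (ht : Transcendental L t) [FiniteDimensional L⟮t⟯ F]
    (hind : ∀ f : ι → L[X], ∑ i, aeval t (f i) * w i = 0 → ∀ i, f i = 0)
    (hcard : Fintype.card ι = Module.finrank L⟮t⟯ F) (y : F) :
    ∃ (g : L[X]) (f : ι → L[X]), g ≠ 0 ∧ aeval t g * y = ∑ i, aeval t (f i) * w i := by
  letI := ratAlgebra ht
  letI := polyAlgebra L t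
  haveI := isScalarTower_poly_rat ht
  have hsm : ∀ (p : L[X]) (z : F), p • z = aeval t p * z := fun p z => by
    rw [Algebra.smul_def]; rfl
  have h1 : LinearIndependent L[X] w := by
    rw [Fintype.linearIndependent_iff]
    intro g hg
    apply hind
    rw [← hg]
    exact Finset.sum_congr rfl fun i _ => (hsm _ _).symm
  have h2 : LinearIndependent (RatFunc L) w :=
    (LinearIndependent.iff_fractionRing L[X] (RatFunc L)).mp h1
  have hfd : FiniteDimensional (RatFunc L) F :=
    Module.Finite.of_equiv_equiv
      (RatFunc.algEquivOfTranscendental t ht).symm.toRingEquiv (RingEquiv.refl F)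
      (ratAlgebra_comp ht)
  have htop := h2.span_eq_top_of_card_eq_finrank' (by rw [hcard, finrank_rat ht])
  have hmem : y ∈ Submodule.span (RatFunc L) (Set.range w) := by
    rw [htop]; exact Submodule.mem_top
  obtain ⟨c, hc⟩ := (Submodule.mem_span_range_iff_exists_fun (RatFunc L)).mp hmem
  obtain ⟨b, hb⟩ := IsLocalization.exist_integer_multiples_of_finite (nonZeroDivisors L[X]) c
  choose f hf using hb
  refine ⟨b, f, nonZeroDivisors.ne_zero b.2, ?_⟩
  rw [← hc, Finset.mul_sum]
  refine Finset.sum_congr rfl fun i _ => ?_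
  rw [← hsm, ← hsm, ← IsScalarTower.algebraMap_smul (RatFunc L) (f i) (w i), hf i, smul_assoc]

theorem IsOrtho.isON_of_card_eq_finrank [Nontrivial Λ] (H : R.IsOrtho t w)
    [FiniteDimensional L⟮t⟯ F] (hcard : Fintype.card ι = Module.finrank L⟮t⟯ F) :
    R.IsON t w :=
  { H with
    span := span_of_card_eq_finrank H.transcendental
      (fun _ hf => H.eq_zero_of_sum_eq_zero hf) hcard }

end SemiRed

end Fermat.Agent.SS
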