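import Fermat.Agent.SS.Z1.Emb
import Fermat.Agent.SS.Z1.Pull
import Fermat.Agent.SS.Z1.Span
import Fermat.Agent.RED.Gauss.Datum
import Fermat.Agent.RED.Gauss.Compat
import Fermat.Agent.RED.ES.Swap
import Fermat.Agent.RED.FrobK
import Fermat.Agent.RED.RB.CharZero
import Fermat.Agent.RED.Cusp.Final

/-!
# SS / (Z1): the two-sided Gauss datum at level `M * q`, `q ∤ M` (values in Laurent series)
-/

set_option autoImplicit false
set_option linter.unusedSectionVars false
noncomputable section
open Polynomial ModularCurve IntermediateField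

namespace Fermat.Agent.SS

open Fermat.Agent.RED Fermat.Agent.RED.Gauss Fermat.Agent.S24 Fermat.Agent.S28
open Fermat.Agent.RED.Cusp (Fb jb)

section Prod

variable {k X Y : Type*} [CommSemiring k] [Semiring X] [Semiring Y] [Algebra k X] [Algebra k Y]

theorem aeval_prod_fst (x : X × Y) (p : k[X]) : (aeval x p).1 = aeval x.1 p :=
  (aeval_algHom_apply (AlgHom.fst k X Y) x p).symm

theorem aeval_prod_snd (x : X × Y) (p : k[X]) : (aeval x p).2 = aeval x.2 p :=
  (aeval_algHom_apply (AlgHom.snd k X Y) x p).symm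

end Prod

variable (M q : ℕ) [NeZero M] [hq : Fact q.Prime] (hqM : ¬ q ∣ M)

/-- the Atkin-Lehner swap as an algebra homomorphism -/
def swAlg : FN (M * q) →ₐ[Kb] FN (M * q) :=
  { (RED.ES.exists_swap M q hq.out hqM).choose with
    commutes' := (RED.ES.exists_swap M q hq.out hqM).choose_spec.1 }

theorem swAlg_alpha (f : FN M) : swAlg M q hqM (heckeAlphaBar Kb M q f) = heckeBetaBar Kb M q f :=
  (RED.ES.exists_swap M q hq.out hqM).choose_spec.2.1 f

theorem swAlg_beta (f : FN M) : swAlg M q hqM (heckeBetaBar Kb M q f) = heckeAlphaBar Kb M q f :=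
  (RED.ES.exists_swap M q hq.out hqM).choose_spec.2.2 f

/-- the `q`-expansion at `∞` -/
def emb₁ : FN (M * q) →ₐ[Kb] LaurentSeries Kb := (modularFunctionFieldBar (M * q)).val

/-- the `q`-expansion at the other cusp -/
def emb₂ : FN (M * q) →ₐ[Kb] LaurentSeries Kb := (emb₁ M q).comp (swAlg M q hqM)

theorem emb₁_apply (y : FN (M * q)) : emb₁ M q y = (y : LaurentSeries Kb) := rfl

theorem emb₁_alpha (f : FN M) : emb₁ M q (heckeAlphaBar Kb M q f) = (f : LaurentSeries Kb) := by
  rw [emb₁_apply]; exact coe_heckeAlphaBar M q f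

theorem emb₁_beta (f : FN M) :
    emb₁ M q (heckeBetaBar Kb M q f) = qExpand Kb q (f : LaurentSeries Kb) := by
  rw [emb₁_apply]; exact coe_heckeBetaBar M q f

theorem emb₂_alpha (f : FN M) :
    emb₂ M q hqM (heckeAlphaBar Kb M q f) = qExpand Kb q (f : LaurentSeries Kb) := by
  rw [emb₂, AlgHom.comp_apply, swAlg_alpha, emb₁_beta]

theorem emb₂_beta (f : FN M) :
    emb₂ M q hqM (heckeBetaBar Kb M q f) = (f : LaurentSeries Kb) := by
  rw [emb₂, AlgHom.comp_apply, swAlg_beta, emb₁_alpha]

theorem alpha_jF : heckeAlphaBar Kb M q (jF M) = jF (M * q) :=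
  Subtype.ext (coe_heckeAlphaBar M q (jF M))

variable {A : ValuationSubring Kb} {k : Type*} [Field k] (π : A →+* k)

/-- the two-sided Gauss datum with values in Laurent series -/
def R₀ : SemiRed π (FN (M * q)) (LaurentSeries k × LaurentSeries k) :=
  ofEmb π (emb₁ M q) (emb₂ M q hqM)

variable {M q}

theorem iota_qExpand (c : ℕ) [NeZero c] (x : LaurentSeries A) :
    iota A (qExpand A c x) = qExpand Kb c (iota A x) := by
  rw [iota, coeffMap_qExpand]

theorem pi_qExpand (c : ℕ) [NeZero c] (x : LaurentSeries A) :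
    pi π (qExpand A c x) = qExpand k c (pi π x) := by
  rw [pi, coeffMap_qExpand]

/-- reduction of `α f`, `f` with integral expansion -/
theorem alpha_mem_of_iota {f : FN M} {a : LaurentSeries A} (h : (f : LaurentSeries Kb) = iota A a) :
    heckeAlphaBar Kb M q f ∈ (R₀ M q hqM π).O :=
  mem_ofEmb_O_of_iota (a := a) (b := qExpand A q a) (by rw [emb₁_alpha, h])
    (by rw [emb₂_alpha, h, iota_qExpand])

theorem rd_alpha_of_iota {f : FN M} {a : LaurentSeries A} (h : (f : LaurentSeries Kb) = iota A a) :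
    (R₀ M q hqM π).rd (heckeAlphaBar Kb M q f) = (pi π a, qExpand k q (pi π a)) := by
  rw [R₀, ofEmb_rd_of_iota (a := a) (b := qExpand A q a) (by rw [emb₁_alpha, h])
    (by rw [emb₂_alpha, h, iota_qExpand]), pi_qExpand]

theorem beta_mem_of_iota {f : FN M} {a : LaurentSeries A} (h : (f : LaurentSeries Kb) = iota A a) :
    heckeBetaBar Kb M q f ∈ (R₀ M q hqM π).O :=
  mem_ofEmb_O_of_iota (a := qExpand A q a) (b := a) (by rw [emb₁_beta, h, iota_qExpand])
    (by rw [emb₂_beta, h])

theorem rd_beta_of_iota {f : FN M} {a : LaurentSeries A} (h : (f : LaurentSeries Kb) = iota A a) :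
    (R₀ M q hqM π).rd (heckeBetaBar Kb M q f) = (qExpand k q (pi π a), pi π a) := by
  rw [R₀, ofEmb_rd_of_iota (a := qExpand A q a) (b := a) (by rw [emb₁_beta, h, iota_qExpand])
    (by rw [emb₂_beta, h]), pi_qExpand]

theorem coe_jF_eq_iota : ((jF M : FN M) : LaurentSeries Kb) = iota A (jqModC A) := by
  rw [coe_jF, jBarSeries_one, iota_jqModC]

section Char

variable [CharP k q]

theorem qExpand_jqModC_char : qExpand k q (jqModC k) = jqModC k ^ q := by
  rw [FrobK.pow_char_eq k q, coeffMap_jqModC]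

theorem qExpand_castLS_char (u : LaurentSeries ℤ) : qExpand k q (castLS k u) = castLS k u ^ q := by
  rw [FrobK.pow_char_eq k q, coeffMap_castLS]

end Char

end Fermat.Agent.SS
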