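import Fermat.Agent.SS.Z1.Normal

/-!
# SS / (Z1): (ON2) `dim_k red (V ∩ O) = dim_L V`, and `V ∩ O` is a free `A`-module
-/

set_option autoImplicit false
set_option linter.unusedSectionVars false
noncomputable section
open Polynomial

namespace Fermat.Agent.SS

open Fermat.Agent.RED.Gauss

variable {L : Type*} [Field L] {A : ValuationSubring L} {k : Type*} [Field k]
variable {π : A →+* k} {F : Type*} [Field F] [Algebra L F] {Λ : Type*} [CommRing Λ] [Algebra k Λ]

/-- Among finitely many constants, not all zero, one divides all the others in `A`. -/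
theorem exists_pivot_val {ι : Type*} (A : ValuationSubring L) (s : Finset ι) (g : ι → L)
    (h : ∃ i ∈ s, g i ≠ 0) :
    ∃ j ∈ s, g j ≠ 0 ∧ (∀ i ∈ s, g i / g j ∈ A) ∧ ∀ i ∈ s, g i ∉ A → g j ∉ A := by
  classical
  obtain ⟨i₀, hi₀, hg₀⟩ := h
  obtain ⟨j, hj, hmax⟩ := s.exists_max_image (fun i => A.valuation (g i)) ⟨i₀, hi₀⟩
  have hj0 : g j ≠ 0 := by
    intro h0
    have h1 := hmax i₀ hi₀
    rw [h0, map_zero, le_zero_iff, map_eq_zero] at h1
    exact hg₀ h1
  refine ⟨j, hj, hj0, fun i hi => ?_, fun i hi hiA hjA => hiA ?_⟩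
  · rw [← ValuationSubring.valuation_le_one_iff, map_div₀]
    have hne : A.valuation (g j) ≠ 0 := by rw [Ne, map_eq_zero]; exact hj0
    rw [div_le_one₀ (zero_lt_iff.mpr hne)]
    exact hmax i hi
  · rw [← ValuationSubring.valuation_le_one_iff] at hjA ⊢
    exact (hmax i hi).trans hjA

namespace SemiRed

variable {R : SemiRed π F Λ}

/-- a relation over `L` between elements of `O`, normalised and reduced -/
theorem sum_pi_smul_rd {ι' : Type*} (s : Finset ι') (x : ι' → F) (hx : ∀ i ∈ s, x i ∈ R.O)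
    (a : ι' → A) :
    R.rd (∑ i ∈ s, algebraMap L F (a i : L) * x i) = ∑ i ∈ s, π (a i) • R.rd (x i) := by
  rw [R.rd_sum _ _ fun i hi => R.O.mul_mem (R.const_mem _) (hx i hi)]
  refine Finset.sum_congr rfl fun i hi => ?_
  rw [R.rd_mul (R.const_mem _) (hx i hi), R.rd_const, Algebra.smul_def]

/-- Lifts of `k`-linearly independent elements are `L`-linearly independent. -/
theorem linearIndependent_of_rd {ι' : Type*} (x : ι' → F) (hx : ∀ i, x i ∈ R.O)
    (h : LinearIndependent k (fun i => R.rd (x i))) : LinearIndependent L x := by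
  classical
  rw [linearIndependent_iff'] at h ⊢
  intro s g hg
  by_contra hcon
  push Not at hcon
  obtain ⟨j, hj, hj0, hdiv, -⟩ := exists_pivot_val A s g hcon
  set a : ι' → A := fun i => if hi : g i / g j ∈ A then ⟨g i / g j, hi⟩ else 0 with ha
  have ha' : ∀ i ∈ s, ((a i : A) : L) = g i / g j := by
    intro i hi
    simp only [ha, dif_pos (hdiv i hi)]
  have h1 : ∑ i ∈ s, algebraMap L F (a i : L) * x i = 0 := by
    have : ∑ i ∈ s, algebraMap L F (a i : L) * x i
        = algebraMap L F (g j)⁻¹ * ∑ i ∈ s, g i • x i := by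
      rw [Finset.mul_sum]
      refine Finset.sum_congr rfl fun i hi => ?_
      rw [ha' i hi, Algebra.smul_def, ← mul_assoc, ← map_mul]
      congr 2
      field_simp
    rw [this, hg, mul_zero]
  have h2 := sum_pi_smul_rd (R := R) s x (fun i _ => hx i) a
  rw [h1, R.rd_zero] at h2
  have h3 := h s (fun i => π (a i)) h2.symm j hj
  have h4 : a j = 1 := Subtype.ext (by rw [ha' j hj, div_self hj0]; rfl)
  rw [h4, map_one] at h3
  exact one_ne_zero h3

/-- If the `x i ∈ O` have `k`-linearly independent reductions and `∑ c i x i ∈ O`, then all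
`c i ∈ A`. -/
theorem coeff_mem_of_sum_mem (hπ : Function.Surjective π) {ι' : Type*} (s : Finset ι')
    (x : ι' → F) (hx : ∀ i, x i ∈ R.O) (h : LinearIndependent k (fun i => R.rd (x i)))
    (c : ι' → L) (hy : ∑ i ∈ s, algebraMap L F (c i) * x i ∈ R.O) : ∀ i ∈ s, c i ∈ A := by
  classical
  by_contra hcon
  push Not at hcon
  obtain ⟨i₀, hi₀, hc₀⟩ := hcon
  have hne : ∃ i ∈ s, c i ≠ 0 := ⟨i₀, hi₀, by rintro h0; exact hc₀ (h0 ▸ A.zero_mem)⟩
  obtain ⟨j, hj, hj0, hdiv, hbig⟩ := exists_pivot_val A s c hne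
  have hjA : c j ∉ A := hbig i₀ hi₀ hc₀
  have hjA' : (c j)⁻¹ ∈ A := (A.mem_or_inv_mem _).resolve_left hjA
  set a : ι' → A := fun i => if hi : c i / c j ∈ A then ⟨c i / c j, hi⟩ else 0 with ha
  have ha' : ∀ i ∈ s, ((a i : A) : L) = c i / c j := by
    intro i hi
    simp only [ha, dif_pos (hdiv i hi)]
  have h1 : ∑ i ∈ s, algebraMap L F (a i : L) * x i
      = algebraMap L F ((⟨(c j)⁻¹, hjA'⟩ : A) : L) * ∑ i ∈ s, algebraMap L F (c i) * x i := by
    rw [Finset.mul_sum]
    refine Finset.sum_congr rfl fun i hi => ?_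
    rw [ha' i hi, ← mul_assoc, ← map_mul]
    congr 2
    field_simp
  have h2 := sum_pi_smul_rd (R := R) s x (fun i _ => hx i) a
  rw [h1, R.rd_mul (R.const_mem _) hy, R.rd_const,
    residue_eq_zero_of_inv_not_mem hπ hjA' (by rwa [inv_inv]), map_zero, zero_mul] at h2
  rw [linearIndependent_iff'] at h
  have h3 := h s (fun i => π (a i)) h2.symm j hj
  have h4 : a j = 1 := Subtype.ext (by rw [ha' j hj, div_self hj0]; rfl)
  rw [h4, map_one] at h3
  exact one_ne_zero h3

/-- The reduction of an `L`-subspace of `F`. -/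
def redSub (R : SemiRed π F Λ) (hπ : Function.Surjective π) (V : Submodule L F) :
    Submodule k Λ where
  carrier := {u | ∃ x ∈ V, x ∈ R.O ∧ R.rd x = u}
  zero_mem' := ⟨0, V.zero_mem, R.O.zero_mem, R.rd_zero⟩
  add_mem' := by
    rintro _ _ ⟨x, hxV, hx, rfl⟩ ⟨y, hyV, hy, rfl⟩
    exact ⟨x + y, V.add_mem hxV hyV, R.O.add_mem hx hy, R.rd_add hx hy⟩
  smul_mem' := by
    rintro a _ ⟨x, hxV, hx, rfl⟩
    obtain ⟨c, rfl⟩ := hπ a
    refine ⟨algebraMap L F (c : L) * x, ?_, R.O.mul_mem (R.const_mem c) hx, ?_⟩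
    · rw [← Algebra.smul_def]; exact V.smul_mem _ hxV
    · rw [R.rd_mul (R.const_mem c) hx, R.rd_const, Algebra.smul_def]

theorem mem_redSub {hπ : Function.Surjective π} {V : Submodule L F} {u : Λ} :
    u ∈ R.redSub hπ V ↔ ∃ x ∈ V, x ∈ R.O ∧ R.rd x = u := Iff.rfl

theorem redSub_mono (hπ : Function.Surjective π) {V W : Submodule L F} (h : V ≤ W) :
    R.redSub hπ V ≤ R.redSub hπ W := by
  rintro _ ⟨x, hxV, hx, rfl⟩
  exact ⟨x, h hxV, hx, rfl⟩

theorem finrank_redSub_le (hπ : Function.Surjective π) (V : Submodule L F)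
    [FiniteDimensional L V] :
    FiniteDimensional k (R.redSub hπ V) ∧
      Module.finrank k (R.redSub hπ V) ≤ Module.finrank L V := by
  have key : ∀ (m : ℕ) (u : Fin m → R.redSub hπ V), LinearIndependent k u →
      m ≤ Module.finrank L V := by
    intro m u hu
    choose x hxV hxO hx using fun i => (u i).2
    have h1 : LinearIndependent k (fun i => R.rd (x i)) := by
      have : (fun i => R.rd (x i)) = (R.redSub hπ V).subtype ∘ u := by
        funext i; exact hx i
      rw [this]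
      exact hu.map' _ (Submodule.ker_subtype _)
    have h2 := linearIndependent_of_rd x hxO h1
    have h3 : LinearIndependent L (fun i => (⟨x i, hxV i⟩ : V)) := by
      refine LinearIndependent.of_comp V.subtype ?_
      exact h2
    simpa using h3.fintype_card_le_finrank
  have hrank : Module.rank k (R.redSub hπ V) ≤ (Module.finrank L V : ℕ) := by
    apply rank_le
    intro t ht
    have h1 : LinearIndependent k
        (fun i : Fin t.card => ((t.equivFin.symm i : t) : R.redSub hπ V)) :=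
      ht.comp _ t.equivFin.symm.injective
    exact key _ _ h1
  have hfd : FiniteDimensional k (R.redSub hπ V) := by
    rw [FiniteDimensional, ← Module.rank_lt_aleph0_iff]
    exact lt_of_le_of_lt hrank (Cardinal.natCast_lt_aleph0)
  exact ⟨hfd, Module.finrank_le_of_rank_le hrank⟩

variable {ι : Type*} [Fintype ι] {t : F} {w : ι → F}

/-- orthonormalisation in `L[X]^ι` -/
theorem exists_orthonormal_poly' (π : A →+* k) (d : ℕ) (W : Submodule L (ι → L[X]))
    (hW : d ≤ Module.finrank L W) :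
    ∃ p : Fin d → (ι → A[X]), (∀ j, (fun i => (p j i).map A.subtype) ∈ W) ∧
      LinearIndependent k (fun j => (fun i => (p j i).map π : ι → k[X])) := by
  refine exists_orthonormal (L := L) (k := k) (MA := ι → A[X])
    (fun p => fun i => (p i).map A.subtype) (fun p => fun i => (p i).map π) ?_ d W hW
  intro f hf
  have hf' : ∃ i, f i ≠ 0 := by
    by_contra hcon
    push Not at hcon
    exact hf (funext hcon)
  obtain ⟨c, p, _, hp, i, hi⟩ := exists_normalize π f hf'
  obtain ⟨m, hm⟩ : ∃ m, ((p i).map π).coeff m ≠ 0 := by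
    by_contra hcon
    push Not at hcon
    exact hi (Polynomial.ext (by simpa using hcon))
  refine ⟨c⁻¹, p, (Polynomial.lcoeff L m).comp (LinearMap.proj i),
    (Polynomial.lcoeff k m).comp (LinearMap.proj i), ?_, ?_, ?_⟩
  · funext i'
    rw [hp i', Pi.smul_apply, Polynomial.smul_eq_C_mul]
  · simpa using hm
  · intro p' h0
    simp only [LinearMap.comp_apply, LinearMap.proj_apply, Polynomial.lcoeff_apply,
      Polynomial.coeff_map] at h0 ⊢
    have : (p' i).coeff m = 0 := Subtype.ext h0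
    rw [this, map_zero]

/-- `f ↦ ∑ f_i(t) w_i` over `L` -/
def PhiL (L : Type*) [Field L] {F : Type*} [Field F] [Algebra L F] (t : F) (w : ι → F) :
    (ι → L[X]) →ₗ[L] F where
  toFun f := ∑ i, aeval t (f i) * w i
  map_add' f g := by
    rw [← Finset.sum_add_distrib]
    exact Finset.sum_congr rfl fun i _ => by rw [Pi.add_apply, map_add, add_mul]
  map_smul' c f := by
    rw [RingHom.id_apply, Finset.smul_sum]
    exact Finset.sum_congr rfl fun i _ => by
      rw [Pi.smul_apply, map_smul, smul_mul_assoc]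

theorem PhiL_apply (f : ι → L[X]) : PhiL L t w f = ∑ i, aeval t (f i) * w i := rfl

theorem mul_PhiL (g : L[X]) (f : ι → L[X]) :
    aeval t g * PhiL L t w f = PhiL L t w (fun i => g * f i) := by
  rw [PhiL_apply, PhiL_apply, Finset.mul_sum]
  exact Finset.sum_congr rfl fun i _ => by rw [map_mul, mul_assoc]

theorem PhiL_map (p : ι → A[X]) : PhiL L t w (fun i => (p i).map A.subtype) = cmb t w p := rfl

/-- `f ↦ ∑ f_i(t̄) w̄_i` over `k` -/
def PhiK (k : Type*) [Field k] {Λ : Type*} [CommRing Λ] [Algebra k Λ] (tb : Λ) (wb : ι → Λ) :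
    (ι → k[X]) →ₗ[k] Λ where
  toFun f := ∑ i, aeval tb (f i) * wb i
  map_add' f g := by
    rw [← Finset.sum_add_distrib]
    exact Finset.sum_congr rfl fun i _ => by rw [Pi.add_apply, map_add, add_mul]
  map_smul' c f := by
    rw [RingHom.id_apply, Finset.smul_sum]
    exact Finset.sum_congr rfl fun i _ => by
      rw [Pi.smul_apply, map_smul, smul_mul_assoc]

theorem PhiK_apply (tb : Λ) (wb : ι → Λ) (f : ι → k[X]) :
    PhiK k tb wb f = ∑ i, aeval tb (f i) * wb i := rfl

namespace IsON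

variable [Nontrivial Λ] (H : R.IsON t w)
include H

theorem ker_PhiK : LinearMap.ker (PhiK k (R.rd t) (fun i => R.rd (w i))) = ⊥ := by
  rw [LinearMap.ker_eq_bot']
  intro f hf
  exact funext (H.indep f hf)

theorem ker_PhiL : LinearMap.ker (PhiL L t w) = ⊥ := by
  rw [LinearMap.ker_eq_bot']
  intro f hf
  exact funext (H.toIsOrtho.eq_zero_of_sum_eq_zero hf)

/-- common denominator for a finite dimensional subspace -/
theorem exists_common_denominator (V : Submodule L F) (hV : V.FG) :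
    ∃ G : L[X], G ≠ 0 ∧ ∀ y ∈ V, ∃ f : ι → L[X], aeval t G * y = PhiL L t w f := by
  induction V, hV using Submodule.fg_induction with
  | singleton x =>
    obtain ⟨g, f, hg, hgf⟩ := H.span x
    refine ⟨g, hg, fun y hy => ?_⟩
    obtain ⟨c, rfl⟩ := Submodule.mem_span_singleton.mp hy
    refine ⟨c • f, ?_⟩
    rw [(PhiL L t w).map_smul c f, PhiL_apply, ← hgf, Algebra.smul_def, Algebra.smul_def]
    ring
  | sup V₁ V₂ _ _ ih₁ ih₂ =>
    obtain ⟨G₁, hG₁, h₁⟩ := ih₁
    obtain ⟨G₂, hG₂, h₂⟩ := ih₂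
    refine ⟨G₁ * G₂, mul_ne_zero hG₁ hG₂, fun y hy => ?_⟩
    obtain ⟨y₁, hy₁, y₂, hy₂, rfl⟩ := Submodule.mem_sup.mp hy
    obtain ⟨f₁, hf₁⟩ := h₁ y₁ hy₁
    obtain ⟨f₂, hf₂⟩ := h₂ y₂ hy₂
    refine ⟨(fun i => G₂ * f₁ i) + (fun i => G₁ * f₂ i), ?_⟩
    rw [map_add, ← mul_PhiL, ← mul_PhiL, ← hf₁, ← hf₂, map_mul]
    ring

/-- **(ON2)**, explicit form. -/
theorem exists_lifts (V : Submodule L F) [FiniteDimensional L V] :
    ∃ x : Fin (Module.finrank L V) → F, (∀ j, x j ∈ V) ∧ (∀ j, x j ∈ R.O) ∧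
      LinearIndependent k (fun j => R.rd (x j)) := by
  obtain ⟨G, hG, hGV⟩ := H.exists_common_denominator V (Submodule.fg_iff_finiteDimensional V |>.mpr
    inferInstance)
  have hG' : aeval t G ≠ 0 := H.toIsOrtho.aeval_ne_zero hG
  set μ : F →ₗ[L] F := LinearMap.mulLeft L (aeval t G) with hμ
  have hμ_apply : ∀ y : F, μ y = aeval t G * y := fun y => rfl
  have hμinj : Function.Injective μ := by
    intro y z hyz
    rw [hμ_apply, hμ_apply] at hyz
    exact mul_left_cancel₀ hG' hyz
  have hΦinj : Function.Injective (PhiL L t w) := LinearMap.ker_eq_bot.mp H.ker_PhiL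
  set W : Submodule L (ι → L[X]) := (V.map μ).comap (PhiL L t w) with hW
  have hWmap : W.map (PhiL L t w) = V.map μ := by
    rw [hW, Submodule.map_comap_eq, inf_eq_right]
    rintro _ ⟨y, hy, rfl⟩
    obtain ⟨f, hf⟩ := hGV y hy
    exact ⟨f, hf.symm⟩
  have hfr : Module.finrank L V = Module.finrank L W := by
    rw [(Submodule.equivMapOfInjective μ hμinj V).finrank_eq, ← hWmap,
      ← (Submodule.equivMapOfInjective (PhiL L t w) hΦinj W).finrank_eq]
  obtain ⟨p, hpW, hpind⟩ := exists_orthonormal_poly' π (Module.finrank L V) W hfr.le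
  obtain ⟨c, P, hc, hP, hGP⟩ := IsOrtho.exists_norm_poly π t hG
  have hy : ∀ j, ∃ y ∈ V, aeval t G * y = cmb t w (p j) := by
    intro j
    obtain ⟨y, hyV, hy⟩ := hpW j
    exact ⟨y, hyV, by rw [← hμ_apply, hy, PhiL_map]⟩
  choose y hyV hy using hy
  have hrel : ∀ j, (algebraMap L F c * y j) * evF t P = cmb t w (p j) := by
    intro j
    rw [← hy j, hGP]
    ring
  have hcm : ∀ j, cmb t w (p j) ∈ R.O := fun j => R.cmb_mem H.t_mem H.w_mem (p j)
  refine ⟨fun j => algebraMap L F c * y j, fun j => ?_,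
    fun j => H.toIsOrtho.mem_of_mul_evF_eq hP (hcm j) (hrel j), ?_⟩
  · show algebraMap L F c * y j ∈ V
    rw [← Algebra.smul_def]
    exact V.smul_mem c (hyV j)
  obtain ⟨v, hv⟩ := H.unit _ hP
  have hred : (fun j => R.rd (algebraMap L F c * y j)) =
      fun j => ((LinearMap.mulLeft k ((v⁻¹ : Λˣ) : Λ)).comp
        (PhiK k (R.rd t) (fun i => R.rd (w i)))) (fun i => (p j i).map π) := by
    funext j
    have h1 := H.toIsOrtho.rd_mul_aeval_eq hP (hcm j) (hrel j)
    rw [LinearMap.comp_apply, LinearMap.mulLeft_apply, PhiK_apply,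
      ← R.rd_cmb H.t_mem H.w_mem, ← h1, ← hv]
    rw [mul_comm (R.rd _), Units.inv_mul_cancel_left]
  rw [hred]
  refine hpind.map' _ ?_
  rw [LinearMap.ker_comp, LinearMap.ker_eq_bot.mpr, Submodule.comap_bot, H.ker_PhiK]
  intro a b hab
  exact (Units.mul_right_inj _).mp hab

/-- **(ON2)**: `dim_k red (V ∩ O) = dim_L V`. -/
theorem finrank_redSub (V : Submodule L F) [FiniteDimensional L V] :
    Module.finrank k (R.redSub H.surj V) = Module.finrank L V := by
  obtain ⟨hfd, hle⟩ := finrank_redSub_le (R := R) H.surj V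
  refine le_antisymm hle ?_
  obtain ⟨x, hxV, hxO, hx⟩ := H.exists_lifts V
  have h1 : LinearIndependent k (fun j =>
      (⟨R.rd (x j), x j, hxV j, hxO j, rfl⟩ : R.redSub H.surj V)) := by
    refine LinearIndependent.of_comp (R.redSub H.surj V).subtype ?_
    exact hx
  simpa using h1.fintype_card_le_finrank

/-- **(ON2)**, lattice form: `V ∩ O` is a free `A`-module on an orthonormal basis. -/
theorem exists_orthonormal_basis (V : Submodule L F) [FiniteDimensional L V] :
    ∃ x : Fin (Module.finrank L V) → F, (∀ j, x j ∈ V) ∧ (∀ j, x j ∈ R.O) ∧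
      LinearIndependent k (fun j => R.rd (x j)) ∧ LinearIndependent L x ∧
      (∀ y ∈ V, ∃ c : Fin (Module.finrank L V) → L, y = ∑ j, algebraMap L F (c j) * x j) ∧
      ∀ y ∈ V, y ∈ R.O → ∃ a : Fin (Module.finrank L V) → A,
        y = ∑ j, algebraMap L F (a j : L) * x j := by
  obtain ⟨x, hxV, hxO, hx⟩ := H.exists_lifts V
  have hxL := linearIndependent_of_rd x hxO hx
  have h3 : LinearIndependent L (fun i => (⟨x i, hxV i⟩ : V)) := by
    refine LinearIndependent.of_comp V.subtype ?_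
    exact hxL
  have hspan : ∀ y ∈ V, ∃ c : Fin (Module.finrank L V) → L,
      y = ∑ j, algebraMap L F (c j) * x j := by
    intro y hy
    have htop := h3.span_eq_top_of_card_eq_finrank' (by simp)
    have hmem : (⟨y, hy⟩ : V) ∈ Submodule.span L (Set.range fun i => (⟨x i, hxV i⟩ : V)) := by
      rw [htop]; exact Submodule.mem_top
    obtain ⟨c, hc⟩ := (Submodule.mem_span_range_iff_exists_fun L).mp hmem
    refine ⟨c, ?_⟩
    have h4 := congrArg Subtype.val hc
    rw [AddSubmonoidClass.coe_finsetSum] at h4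
    rw [show y = ((⟨y, hy⟩ : V) : F) from rfl, ← h4]
    refine Finset.sum_congr rfl fun j _ => ?_
    rw [← Algebra.smul_def]
    rfl
  refine ⟨x, hxV, hxO, hx, hxL, hspan, fun y hy hyO => ?_⟩
  obtain ⟨c, hc⟩ := hspan y hy
  have hcA := coeff_mem_of_sum_mem H.surj Finset.univ x hxO hx c (hc ▸ hyO)
  exact ⟨fun j => ⟨c j, hcA j (Finset.mem_univ j)⟩, hc⟩

end IsON

end SemiRed

end Fermat.Agent.SS
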