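import Fermat.Agent.SS.Z1.ON2
import Fermat.Agent.SS.Abs.Defs

/-!
# SS / (Z1): `TwoRed` from a `SemiRed` with values in `Fb × Fb`
-/

set_option autoImplicit false
set_option linter.unusedSectionVars false
noncomputable section

namespace Fermat.Agent.SS.SemiRed

open Fermat.Agent.RED.Gauss

variable {L : Type*} [Field L] {A : ValuationSubring L} {k : Type*} [Field k] {π : A →+* k}
  {F : Type*} [Field F] [Algebra L F] {Fb : Type*} [Field Fb] [Algebra k Fb]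

/-- exchange the two components -/
def swap (R : SemiRed π F (Fb × Fb)) : SemiRed π F (Fb × Fb) where
  O := R.O
  red := (RingEquiv.prodComm (R := Fb) (S := Fb)).toRingHom.comp R.red
  inv_mem x hx := by
    refine R.inv_mem x ?_
    have := hx.map (RingEquiv.prodComm (R := Fb) (S := Fb)).symm
    simpa using this
  const_mem := R.const_mem
  red_const a := by
    rw [RingHom.comp_apply, R.red_const]
    rfl

theorem swap_O (R : SemiRed π F (Fb × Fb)) : R.swap.O = R.O := rfl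

theorem swap_rd (R : SemiRed π F (Fb × Fb)) (y : F) : R.swap.rd y = (R.rd y).swap := by
  by_cases h : y ∈ R.O
  · rw [R.rd_of_mem h, R.swap.rd_of_mem h]
    rfl
  · have h' : y ∉ R.swap.O := h
    rw [rd, rd, dif_neg h, dif_neg h']
    rfl

theorem swap_rd_fst (R : SemiRed π F (Fb × Fb)) (y : F) : (R.swap.rd y).1 = (R.rd y).2 := by
  rw [swap_rd]; rfl

theorem swap_rd_snd (R : SemiRed π F (Fb × Fb)) (y : F) : (R.swap.rd y).2 = (R.rd y).1 := by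
  rw [swap_rd]; rfl

theorem HasScale.swap {R : SemiRed π F (Fb × Fb)} (hS : R.HasScale) : R.swap.HasScale := by
  intro y hy
  obtain ⟨c, y', hc, hy', hr, h⟩ := hS y hy
  refine ⟨c, y', hc, hy', ?_, h⟩
  intro h0
  apply hr
  rw [swap_rd] at h0
  have := congrArg Prod.swap h0
  simpa using this

theorem swap_surjective {R : SemiRed π F (Fb × Fb)} (hsurj : Function.Surjective R.red) :
    Function.Surjective R.swap.red := by
  intro w
  obtain ⟨x, hx⟩ := hsurj w.swap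
  refine ⟨x, ?_⟩
  show (R.red x).swap = w
  rw [hx, Prod.swap_swap]

variable (R : SemiRed π F (Fb × Fb))

theorem rd_const_fst (a : A) : (R.rd (algebraMap L F (a : L))).1 = algebraMap k Fb (π a) := by
  rw [R.rd_const]; rfl

theorem rd_const_snd (a : A) : (R.rd (algebraMap L F (a : L))).2 = algebraMap k Fb (π a) := by
  rw [R.rd_const]; rfl

/-- the carrier of the localisation at the first component -/
def locSet : Set F := {y | ∃ x ∈ R.O, ∃ s ∈ R.O, (R.rd s).1 ≠ 0 ∧ y * s = x}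

theorem mem_locSet {y : F} :
    y ∈ R.locSet ↔ ∃ x ∈ R.O, ∃ s ∈ R.O, (R.rd s).1 ≠ 0 ∧ y * s = x := Iff.rfl

theorem mem_locSet_of_mem {y : F} (hy : y ∈ R.O) : y ∈ R.locSet :=
  ⟨y, hy, 1, R.O.one_mem, by rw [R.rd_one]; exact one_ne_zero, mul_one y⟩

theorem ne_zero_of_rd_fst {s : F} (h : (R.rd s).1 ≠ 0) : s ≠ 0 := by
  rintro rfl
  rw [R.rd_zero] at h
  exact h rfl

theorem rd_mul_fst {x y : F} (hx : x ∈ R.O) (hy : y ∈ R.O) :
    (R.rd (x * y)).1 = (R.rd x).1 * (R.rd y).1 := by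
  rw [R.rd_mul hx hy]; rfl

theorem rd_add_fst {x y : F} (hx : x ∈ R.O) (hy : y ∈ R.O) :
    (R.rd (x + y)).1 = (R.rd x).1 + (R.rd y).1 := by
  rw [R.rd_add hx hy]; rfl

/-- every nonzero element is a constant times a unit of the localisation -/
theorem exists_const_mul_unit (hπ : Function.Surjective π) (hS : R.HasScale) {y : F}
    (hy : y ≠ 0) :
    ∃ (c : L) (u v : F), c ≠ 0 ∧ u ∈ R.O ∧ v ∈ R.O ∧ (R.rd u).1 ≠ 0 ∧ (R.rd v).1 ≠ 0 ∧
      y * v = algebraMap L F c * u := by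
  obtain ⟨c, y', hc, hy', hr, h⟩ := hS y hy
  by_cases h1 : (R.rd y').1 = 0
  · have hy0 : y' ≠ 0 := by
      rintro rfl
      exact hr R.rd_zero
    have h2 : (R.rd y').2 ≠ 0 := fun h2 => hr (Prod.ext h1 h2)
    obtain ⟨c2, z, hc2, hz, hrz, hz'⟩ := hS y'⁻¹ (inv_ne_zero hy0)
    have hc2L : algebraMap L F c2 ≠ 0 := by rw [Ne, map_eq_zero]; exact hc2
    have hyz : y' * z = algebraMap L F c2⁻¹ := by
      have : z = (algebraMap L F c2)⁻¹ * y'⁻¹ := by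
        rw [hz', inv_mul_cancel_left₀ hc2L]
      rw [this, map_inv₀]
      field_simp
    have hκ : c2⁻¹ ∈ A := by
      rw [← algebraMap_mem_O_iff (R := R) hπ, ← hyz]
      exact R.O.mul_mem hy' hz
    have hrd : R.rd y' * R.rd z = algebraMap k (Fb × Fb) (π ⟨c2⁻¹, hκ⟩) := by
      rw [← R.rd_mul hy' hz, hyz]
      exact R.rd_const ⟨c2⁻¹, hκ⟩
    have e1 : algebraMap k Fb (π ⟨c2⁻¹, hκ⟩) = 0 := by
      have := congrArg Prod.fst hrd
      rw [Prod.fst_mul, h1, zero_mul] at this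
      exact this.symm
    have e2 : (R.rd z).2 = 0 := by
      have := congrArg Prod.snd hrd
      rw [Prod.snd_mul] at this
      have h3 : (R.rd y').2 * (R.rd z).2 = 0 := this.trans e1
      exact (mul_eq_zero.mp h3).resolve_left h2
    have e3 : (R.rd z).1 ≠ 0 := fun h3 => hrz (Prod.ext h3 e2)
    refine ⟨c * c2⁻¹, 1, z, mul_ne_zero hc (inv_ne_zero hc2), R.O.one_mem, hz, ?_, e3, ?_⟩
    · rw [R.rd_one]; exact one_ne_zero
    · rw [h, mul_assoc, hyz, map_mul, mul_one]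
  · refine ⟨c, y', 1, hc, hy', R.O.one_mem, h1, ?_, ?_⟩
    · rw [R.rd_one]; exact one_ne_zero
    · rw [mul_one, h]

/-- the valuation ring of the first component -/
def locO (hπ : Function.Surjective π) (hS : R.HasScale) : ValuationSubring F where
  carrier := R.locSet
  zero_mem' := R.mem_locSet_of_mem R.O.zero_mem
  one_mem' := R.mem_locSet_of_mem R.O.one_mem
  add_mem' := by
    rintro y₁ y₂ ⟨x₁, hx₁, s₁, hs₁, h₁, e₁⟩ ⟨x₂, hx₂, s₂, hs₂, h₂, e₂⟩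
    refine ⟨x₁ * s₂ + x₂ * s₁, R.O.add_mem (R.O.mul_mem hx₁ hs₂) (R.O.mul_mem hx₂ hs₁), s₁ * s₂,
      R.O.mul_mem hs₁ hs₂, ?_, ?_⟩
    · rw [R.rd_mul_fst hs₁ hs₂]; exact mul_ne_zero h₁ h₂
    · rw [← e₁, ← e₂]; ring
  mul_mem' := by
    rintro y₁ y₂ ⟨x₁, hx₁, s₁, hs₁, h₁, e₁⟩ ⟨x₂, hx₂, s₂, hs₂, h₂, e₂⟩
    refine ⟨x₁ * x₂, R.O.mul_mem hx₁ hx₂, s₁ * s₂, R.O.mul_mem hs₁ hs₂, ?_, ?_⟩
    · rw [R.rd_mul_fst hs₁ hs₂]; exact mul_ne_zero h₁ h₂
    · rw [← e₁, ← e₂]; ring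
  neg_mem' := by
    rintro y ⟨x, hx, s, hs, h, e⟩
    exact ⟨-x, R.O.neg_mem hx, s, hs, h, by rw [← e]; ring⟩
  mem_or_inv_mem' := by
    intro y
    rcases eq_or_ne y 0 with rfl | hy
    · exact Or.inl (R.mem_locSet_of_mem R.O.zero_mem)
    obtain ⟨c, u, v, hc, hu, hv, hu1, hv1, e⟩ := R.exists_const_mul_unit hπ hS hy
    rcases A.mem_or_inv_mem c with hcA | hcA
    · exact Or.inl ⟨_, R.O.mul_mem (R.const_mem ⟨c, hcA⟩) hu, v, hv, hv1, e⟩
    · refine Or.inr ⟨_, R.O.mul_mem (R.const_mem ⟨c⁻¹, hcA⟩) hv, u, hu, hu1, ?_⟩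
      have hcL : algebraMap L F c ≠ 0 := by rw [Ne, map_eq_zero]; exact hc
      show y⁻¹ * u = algebraMap L F c⁻¹ * v
      rw [map_inv₀]
      field_simp
      rw [mul_comm, ← e, mul_comm]

theorem mem_locO {hπ : Function.Surjective π} {hS : R.HasScale} {y : F} :
    y ∈ R.locO hπ hS ↔ ∃ x ∈ R.O, ∃ s ∈ R.O, (R.rd s).1 ≠ 0 ∧ y * s = x := Iff.rfl

open Classical in
/-- the reduction at the first component, as a total function -/
def locFun (y : F) : Fb :=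
  if h : y ∈ R.locSet then (R.rd h.choose).1 / (R.rd h.choose_spec.2.choose).1 else 0

theorem locFun_eq {y x s : F} (hx : x ∈ R.O) (hs : s ∈ R.O) (h1 : (R.rd s).1 ≠ 0)
    (h : y * s = x) : R.locFun y = (R.rd x).1 / (R.rd s).1 := by
  have hy : y ∈ R.locSet := ⟨x, hx, s, hs, h1, h⟩
  rw [locFun, dif_pos hy]
  have hx' := hy.choose_spec.1
  have hs' := hy.choose_spec.2.choose_spec.1
  have h1' := hy.choose_spec.2.choose_spec.2.1
  have h' := hy.choose_spec.2.choose_spec.2.2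
  generalize hy.choose_spec.2.choose = s' at hs' h1' h' ⊢
  generalize hy.choose = x' at hx' h' ⊢
  rw [div_eq_div_iff h1' h1, ← R.rd_mul_fst hx' hs, ← R.rd_mul_fst hx hs', ← h, ← h']
  congr 2
  ring

theorem locFun_of_mem {y : F} (hy : y ∈ R.O) : R.locFun y = (R.rd y).1 := by
  rw [R.locFun_eq hy R.O.one_mem (by rw [R.rd_one]; exact one_ne_zero) (mul_one y), R.rd_one]
  exact div_one _

/-- the reduction at the first component -/
def locRed (hπ : Function.Surjective π) (hS : R.HasScale) : R.locO hπ hS →+* Fb where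
  toFun y := R.locFun (y : F)
  map_one' := by
    show R.locFun 1 = 1
    rw [R.locFun_of_mem R.O.one_mem, R.rd_one]; rfl
  map_zero' := by
    show R.locFun 0 = 0
    rw [R.locFun_of_mem R.O.zero_mem, R.rd_zero]; rfl
  map_mul' := by
    rintro ⟨y₁, x₁, hx₁, s₁, hs₁, h₁, e₁⟩ ⟨y₂, x₂, hx₂, s₂, hs₂, h₂, e₂⟩
    show R.locFun (y₁ * y₂) = R.locFun y₁ * R.locFun y₂
    rw [R.locFun_eq hx₁ hs₁ h₁ e₁, R.locFun_eq hx₂ hs₂ h₂ e₂,
      R.locFun_eq (R.O.mul_mem hx₁ hx₂) (R.O.mul_mem hs₁ hs₂)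
        (by rw [R.rd_mul_fst hs₁ hs₂]; exact mul_ne_zero h₁ h₂)
        (by rw [← e₁, ← e₂]; ring : y₁ * y₂ * (s₁ * s₂) = x₁ * x₂),
      R.rd_mul_fst hx₁ hx₂, R.rd_mul_fst hs₁ hs₂, div_mul_div_comm]
  map_add' := by
    rintro ⟨y₁, x₁, hx₁, s₁, hs₁, h₁, e₁⟩ ⟨y₂, x₂, hx₂, s₂, hs₂, h₂, e₂⟩
    show R.locFun (y₁ + y₂) = R.locFun y₁ + R.locFun y₂
    rw [R.locFun_eq hx₁ hs₁ h₁ e₁, R.locFun_eq hx₂ hs₂ h₂ e₂,
      R.locFun_eq (R.O.add_mem (R.O.mul_mem hx₁ hs₂) (R.O.mul_mem hx₂ hs₁)) (R.O.mul_mem hs₁ hs₂)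
        (by rw [R.rd_mul_fst hs₁ hs₂]; exact mul_ne_zero h₁ h₂)
        (by rw [← e₁, ← e₂]; ring : (y₁ + y₂) * (s₁ * s₂) = x₁ * s₂ + x₂ * s₁),
      R.rd_add_fst (R.O.mul_mem hx₁ hs₂) (R.O.mul_mem hx₂ hs₁), R.rd_mul_fst hx₁ hs₂,
      R.rd_mul_fst hx₂ hs₁, R.rd_mul_fst hs₁ hs₂, div_add_div _ _ h₁ h₂]
    congr 1
    ring

theorem locRed_apply {hπ : Function.Surjective π} {hS : R.HasScale} (y : R.locO hπ hS) :
    R.locRed hπ hS y = R.locFun (y : F) := rfl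

/-- a constant of the localisation lies in `A` -/
theorem mem_A_of_const_mem_locSet (hπ : Function.Surjective π) {c : L}
    (hc : algebraMap L F c ∈ R.locSet) : c ∈ A := by
  obtain ⟨x, hx, s, hs, h1, e⟩ := hc
  by_contra hcA
  have hc' : c⁻¹ ∈ A := (A.mem_or_inv_mem c).resolve_left hcA
  have hc0 : c ≠ 0 := by rintro rfl; exact hcA A.zero_mem
  have hcL : algebraMap L F c ≠ 0 := by rw [Ne, map_eq_zero]; exact hc0
  have h2 : s = algebraMap L F ((⟨c⁻¹, hc'⟩ : A) : L) * x := by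
    rw [← e, map_inv₀, inv_mul_cancel_left₀ hcL]
  apply h1
  rw [h2, R.rd_mul (R.const_mem _) hx, R.rd_const,
    residue_eq_zero_of_inv_not_mem hπ hc' (by rwa [inv_inv]), map_zero, zero_mul]
  rfl

theorem const_mem_locSet_iff (hπ : Function.Surjective π) {c : L} :
    algebraMap L F c ∈ R.locSet ↔ c ∈ A :=
  ⟨R.mem_A_of_const_mem_locSet hπ, fun h => R.mem_locSet_of_mem (R.const_mem ⟨c, h⟩)⟩

variable (hπ : Function.Surjective π) (hS : R.HasScale) (hsurj : Function.Surjective R.red)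

/-- localisation of `O` at the kernel of the first component of `red` -/
def loc₁ : RED.RedData L F k Fb where
  O := R.locO hπ hS
  red := R.locRed hπ hS
  red_surjective := by
    intro a
    obtain ⟨x, hx⟩ := hsurj (a, 0)
    refine ⟨⟨x, R.mem_locSet_of_mem x.2⟩, ?_⟩
    rw [locRed_apply]
    show R.locFun (x : F) = a
    rw [R.locFun_of_mem x.2, R.rd_coe, hx]
  isUnit_of_red_ne_zero := by
    rintro ⟨y, x, hx, s, hs, h1, e⟩ hne
    rw [locRed_apply] at hne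
    change R.locFun y ≠ 0 at hne
    rw [R.locFun_eq hx hs h1 e] at hne
    have hx1 : (R.rd x).1 ≠ 0 := fun h0 => hne (by rw [h0, zero_div])
    have hx0 : x ≠ 0 := R.ne_zero_of_rd_fst hx1
    have hy0 : y ≠ 0 := by
      rintro rfl
      rw [zero_mul] at e
      exact hx0 e.symm
    have hinv : y⁻¹ ∈ R.locO hπ hS := ⟨s, hs, x, hx, hx1, by rw [← e]; field_simp⟩
    refine isUnit_iff_exists_inv.mpr ⟨⟨y⁻¹, hinv⟩, ?_⟩
    exact Subtype.ext (mul_inv_cancel₀ hy0)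
  exists_const := by
    intro a
    obtain ⟨c, rfl⟩ := hπ a
    refine ⟨(c : L), R.mem_locSet_of_mem (R.const_mem c), ?_⟩
    rw [locRed_apply]
    show R.locFun (algebraMap L F (c : L)) = _
    rw [R.locFun_of_mem (R.const_mem c), R.rd_const_fst]
  red_const := by
    intro c hc
    have hcA : c ∈ A := R.mem_A_of_const_mem_locSet hπ hc
    refine ⟨π ⟨c, hcA⟩, ?_⟩
    rw [locRed_apply]
    show R.locFun (algebraMap L F c) = _
    rw [R.locFun_of_mem (R.const_mem ⟨c, hcA⟩)]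
    exact R.rd_const_fst ⟨c, hcA⟩
  exists_scale := by
    intro f hf
    obtain ⟨c, u, v, hc, hu, hv, hu1, hv1, e⟩ := R.exists_const_mul_unit hπ hS hf
    have hcL : algebraMap L F c ≠ 0 := by rw [Ne, map_eq_zero]; exact hc
    have e' : algebraMap L F c⁻¹ * f * v = u := by
      rw [mul_assoc, e, map_inv₀, inv_mul_cancel_left₀ hcL]
    refine ⟨c⁻¹, ⟨u, hu, v, hv, hv1, e'⟩, ?_⟩
    rw [locRed_apply]
    show R.locFun (algebraMap L F c⁻¹ * f) ≠ 0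
    rw [R.locFun_eq hu hv hv1 e']
    exact div_ne_zero hu1 hv1

/-- localisation of `O` at the kernel of the second component of `red` -/
def loc₂ : RED.RedData L F k Fb := R.swap.loc₁ hπ hS.swap (swap_surjective hsurj)

theorem mem_loc₁ {y : F} : y ∈ (R.loc₁ hπ hS hsurj).O ↔
    ∃ x ∈ R.O, ∃ s ∈ R.O, (R.rd s).1 ≠ 0 ∧ y * s = x := Iff.rfl

theorem loc₁_red {y x s : F} (hy : y ∈ (R.loc₁ hπ hS hsurj).O) (hx : x ∈ R.O) (hs : s ∈ R.O)
    (h1 : (R.rd s).1 ≠ 0) (h : y * s = x) :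
    (R.loc₁ hπ hS hsurj).red ⟨y, hy⟩ = (R.rd x).1 / (R.rd s).1 :=
  R.locFun_eq hx hs h1 h

theorem mem_loc₂ {y : F} : y ∈ (R.loc₂ hπ hS hsurj).O ↔
    ∃ x ∈ R.O, ∃ s ∈ R.O, (R.rd s).2 ≠ 0 ∧ y * s = x := by
  rw [loc₂, mem_loc₁]
  simp only [swap_rd_fst, swap_O]

theorem loc₂_red {y x s : F} (hy : y ∈ (R.loc₂ hπ hS hsurj).O) (hx : x ∈ R.O) (hs : s ∈ R.O)
    (h1 : (R.rd s).2 ≠ 0) (h : y * s = x) :
    (R.loc₂ hπ hS hsurj).red ⟨y, hy⟩ = (R.rd x).2 / (R.rd s).2 := by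
  have := R.swap.loc₁_red hπ hS.swap (swap_surjective hsurj) hy hx hs
    (by rwa [swap_rd_fst]) h
  rw [swap_rd_fst, swap_rd_fst] at this
  exact this

theorem mem_loc₁_of_mem {y : F} (hy : y ∈ R.O) : y ∈ (R.loc₁ hπ hS hsurj).O :=
  R.mem_locSet_of_mem hy

theorem mem_loc₂_of_mem {y : F} (hy : y ∈ R.O) : y ∈ (R.loc₂ hπ hS hsurj).O :=
  R.swap.mem_locSet_of_mem hy

theorem loc₁_red_of_mem {y : F} (hy : y ∈ R.O) :
    (R.loc₁ hπ hS hsurj).red ⟨y, R.mem_loc₁_of_mem hπ hS hsurj hy⟩ = (R.rd y).1 :=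
  R.locFun_of_mem hy

theorem loc₂_red_of_mem {y : F} (hy : y ∈ R.O) :
    (R.loc₂ hπ hS hsurj).red ⟨y, R.mem_loc₂_of_mem hπ hS hsurj hy⟩ = (R.rd y).2 :=
  (R.swap.locFun_of_mem hy).trans (R.swap_rd_fst y)

theorem const_mem_loc₁_iff {c : L} : algebraMap L F c ∈ (R.loc₁ hπ hS hsurj).O ↔ c ∈ A :=
  R.const_mem_locSet_iff hπ

theorem const_mem_loc₂_iff {c : L} : algebraMap L F c ∈ (R.loc₂ hπ hS hsurj).O ↔ c ∈ A :=
  R.swap.const_mem_locSet_iff hπ

/-- the two localisations of a semi-local reduction with values in `Fb × Fb` -/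
def toTwoRed : TwoRed L F k Fb where
  R₁ := R.loc₁ hπ hS hsurj
  R₂ := R.loc₂ hπ hS hsurj
  const_mem c := by rw [const_mem_loc₁_iff, const_mem_loc₂_iff]
  const_red c h₁ h₂ := by
    have hcA : c ∈ A := (R.const_mem_loc₁_iff hπ hS hsurj).mp h₁
    have e1 := R.loc₁_red_of_mem hπ hS hsurj (R.const_mem ⟨c, hcA⟩)
    have e2 := R.loc₂_red_of_mem hπ hS hsurj (R.const_mem ⟨c, hcA⟩)
    rw [R.rd_const_fst] at e1
    rw [R.rd_const_snd] at e2
    exact e1.trans e2.symm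
  joint_surj a b := by
    obtain ⟨x, hx⟩ := hsurj (a, b)
    refine ⟨x, R.mem_loc₁_of_mem hπ hS hsurj x.2, R.mem_loc₂_of_mem hπ hS hsurj x.2, ?_, ?_⟩
    · rw [R.loc₁_red_of_mem hπ hS hsurj x.2, R.rd_coe, hx]
    · rw [R.loc₂_red_of_mem hπ hS hsurj x.2, R.rd_coe, hx]

theorem toTwoRed_R₁ : (R.toTwoRed hπ hS hsurj).R₁ = R.loc₁ hπ hS hsurj := rfl

theorem toTwoRed_R₂ : (R.toTwoRed hπ hS hsurj).R₂ = R.loc₂ hπ hS hsurj := rfl

theorem toTwoRed_O : (R.toTwoRed hπ hS hsurj).O = R.O := by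
  ext y
  rw [TwoRed.mem_O]
  constructor
  · rintro ⟨h1, h2⟩
    rcases eq_or_ne y 0 with rfl | hy
    · exact R.O.zero_mem
    obtain ⟨c, y', hc, hy', hr, h⟩ := hS y hy
    rw [mem_O_iff_of_scale hπ hy' hr h]
    by_cases ha : (R.rd y').1 = 0
    · have hb : (R.rd y').2 ≠ 0 := fun hb => hr (Prod.ext ha hb)
      obtain ⟨x, hx, s, hs, hs1, e⟩ := (R.mem_loc₂ hπ hS hsurj).mp h2
      refine (R.const_mem_loc₂_iff hπ hS hsurj).mp ((R.mem_loc₂ hπ hS hsurj).mpr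
        ⟨x, hx, y' * s, R.O.mul_mem hy' hs, ?_, ?_⟩)
      · rw [R.rd_mul hy' hs]; exact mul_ne_zero hb hs1
      · rw [← mul_assoc, ← h, e]
    · obtain ⟨x, hx, s, hs, hs1, e⟩ := (R.mem_loc₁ hπ hS hsurj).mp h1
      refine (R.const_mem_loc₁_iff hπ hS hsurj).mp ((R.mem_loc₁ hπ hS hsurj).mpr
        ⟨x, hx, y' * s, R.O.mul_mem hy' hs, ?_, ?_⟩)
      · rw [R.rd_mul hy' hs]; exact mul_ne_zero ha hs1
      · rw [← mul_assoc, ← h, e]
  · intro hy
    exact ⟨R.mem_loc₁_of_mem hπ hS hsurj hy, R.mem_loc₂_of_mem hπ hS hsurj hy⟩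

theorem toTwoRed_red (u : (R.toTwoRed hπ hS hsurj).O) :
    (R.toTwoRed hπ hS hsurj).red u = R.rd (u : F) := by
  have hu : (u : F) ∈ R.O := by
    rw [← R.toTwoRed_O hπ hS hsurj]; exact u.2
  apply Prod.ext
  · rw [TwoRed.red_fst]
    exact R.loc₁_red_of_mem hπ hS hsurj hu
  · rw [TwoRed.red_snd]
    exact R.loc₂_red_of_mem hπ hS hsurj hu

theorem toTwoRed_A : (R.toTwoRed hπ hS hsurj).A = A := by
  ext c
  exact R.const_mem_loc₁_iff hπ hS hsurj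

theorem toTwoRed_redSub (V : Submodule L F) :
    (R.toTwoRed hπ hS hsurj).redSub V = R.redSub hπ V := by
  ext w
  rw [TwoRed.mem_redSub, mem_redSub]
  constructor
  · rintro ⟨u, huV, rfl⟩
    refine ⟨u, huV, ?_, (R.toTwoRed_red hπ hS hsurj u).symm⟩
    rw [← R.toTwoRed_O hπ hS hsurj]; exact u.2
  · rintro ⟨x, hxV, hx, rfl⟩
    have hx' : x ∈ (R.toTwoRed hπ hS hsurj).O := by rw [R.toTwoRed_O hπ hS hsurj]; exact hx
    exact ⟨⟨x, hx'⟩, hxV, R.toTwoRed_red hπ hS hsurj ⟨x, hx'⟩⟩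

end Fermat.Agent.SS.SemiRed
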