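import Fermat.Agent.SS.Z1.LevelFb
import Fermat.Agent.SS.Z1.TwoRedOf

/-!
# SS / (Z1): surjectivity of the two-sided reduction, `TwoRed`, (ON2), the swap
-/

set_option autoImplicit false
set_option linter.unusedSectionVars false
set_option linter.style.haveILetI false
noncomputable section
open Polynomial ModularCurve IntermediateField

namespace Fermat.Agent.SS

open Fermat.Agent.RED Fermat.Agent.RED.Gauss Fermat.Agent.S24 Fermat.Agent.S28
open Fermat.Agent.RED.Cusp (Fb jb)

variable {M q : ℕ} [NeZero M] [hq : Fact q.Prime] (hqM : ¬ q ∣ M)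
variable {A : ValuationSubring Kb} {k : Type*} [Field k]
variable (π : A →+* k) [CharP k q] [IsAlgClosed k] (hπ : Function.Surjective π)

/-- reduction of `α f`, `f` in the Gauss ring of level `M`, whose reduction is `a` -/
theorem rd_alpha {f : FN M} (hf : (f : LaurentSeries Kb) ∈ bigO π) {a : Fb k M}
    (ha : (a : LaurentSeries k) = bigRed π ⟨f, hf⟩) :
    (RR hqM π hπ).rd (heckeAlphaBar Kb M q f) = (a, FrB a) := by
  apply RR_rd_eq
  rw [R₀_rd_alpha hqM π hf, ← ha]
  rfl

/-- reduction of `β f` -/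
theorem rd_beta {f : FN M} (hf : (f : LaurentSeries Kb) ∈ bigO π) {a : Fb k M}
    (ha : (a : LaurentSeries k) = bigRed π ⟨f, hf⟩) :
    (RR hqM π hπ).rd (heckeBetaBar Kb M q f) = (FrB a, a) := by
  apply RR_rd_eq
  rw [R₀_rd_beta hqM π hf, ← ha]
  rfl

theorem alpha_mem {f : FN M} (hf : (f : LaurentSeries Kb) ∈ bigO π) :
    heckeAlphaBar Kb M q f ∈ (RR hqM π hπ).O := alpha_mem₀ hqM π hf

theorem beta_mem {f : FN M} (hf : (f : LaurentSeries Kb) ∈ bigO π) :
    heckeBetaBar Kb M q f ∈ (RR hqM π hπ).O := beta_mem₀ hqM π hf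

include hqM hπ in
/-- every element of `Fb` is the reduction of an element of the Gauss ring of level `M` -/
theorem exists_lift_level (a : Fb k M) : ∃ (f : FN M) (hf : (f : LaurentSeries Kb) ∈ bigO π),
    (a : LaurentSeries k) = bigRed π ⟨f, hf⟩ := by
  obtain ⟨u, h⟩ := exists_isCoreExt M q hqM
  obtain ⟨x, hx⟩ := (gaussRedData π hπ (Fintype.card_pos_iff.mpr ⟨Q.base M⟩) h).red_surjective a
  refine ⟨x, x.2, ?_⟩
  rw [← hx]
  rfl

omit [IsAlgClosed k] in
theorem jqModC_ne_pow : jqModC k ≠ (jqModC k ^ q) ^ q := by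
  intro h
  have h1 : aeval (jqModC k) (X : k[X]) = aeval (jqModC k) ((X : k[X]) ^ (q * q)) := by
    rw [aeval_X, map_pow, aeval_X, pow_mul]; exact h
  have h2 := congrArg natDegree (aeval_jqModC_injective k h1)
  rw [natDegree_X, natDegree_X_pow] at h2
  have := hq.out.two_le
  nlinarith

theorem FrB_ne_zero {a : Fb k M} (ha : a ≠ 0) : (FrB a : Fb k M) ≠ 0 := by
  intro h0
  apply ha
  apply Subtype.ext
  apply qExpand_injective (R := k) q
  exact (congrArg Subtype.val h0).trans (map_zero (qExpand k q)).symm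

theorem FrB_jb : (FrB (jb k M) : Fb k M) = jb k M ^ q :=
  Subtype.ext qExpand_jqModC_char

theorem FrB_pow (a : Fb k M) (n : ℕ) : (FrB (a ^ n) : Fb k M) = FrB a ^ n :=
  Subtype.ext (map_pow (qExpand k q) _ n)

/-- **joint surjectivity** of the two reductions -/
theorem red_surjective : Function.Surjective (RR hqM π hπ).red := by
  refine (RR hqM π hπ).surjective_of_frob (fun a => FrB a) (fun a ha => FrB_ne_zero ha) ?_ ?_
    (jb k M) ?_
  · intro a
    obtain ⟨f, hf, ha⟩ := exists_lift_level hqM π hπ a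
    exact ⟨⟨_, alpha_mem hqM π hπ hf⟩, by rw [← SemiRed.rd_coe]; exact rd_alpha hqM π hπ hf ha⟩
  · intro a
    obtain ⟨f, hf, ha⟩ := exists_lift_level hqM π hπ a
    exact ⟨⟨_, beta_mem hqM π hπ hf⟩, by rw [← SemiRed.rd_coe]; exact rd_beta hqM π hπ hf ha⟩
  · intro h
    rw [FrB_jb, FrB_pow, FrB_jb] at h
    exact jqModC_ne_pow (q := q) (congrArg Subtype.val h)

/-- **The two reductions** of the function field of level `M * q`. -/
def twoRed : TwoRed Kb (FN (M * q)) k (Fb k M) :=
  (RR hqM π hπ).toTwoRed hπ (hasScale hqM π hπ) (red_surjective hqM π hπ)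

theorem twoRed_O : (twoRed hqM π hπ).O = (RR hqM π hπ).O := SemiRed.toTwoRed_O _ _ _ _

theorem twoRed_red (u : (twoRed hqM π hπ).O) :
    (twoRed hqM π hπ).red u = (RR hqM π hπ).rd (u : FN (M * q)) := SemiRed.toTwoRed_red _ _ _ _ u

theorem twoRed_A : (twoRed hqM π hπ).A = A := SemiRed.toTwoRed_A _ _ _ _

/-- **(ON2)** in the shape of `NodalData.on2`. -/
theorem twoRed_on2 (V : Submodule Kb (FN (M * q))) (hV : FiniteDimensional Kb V) :
    Module.finrank Kb V ≤ Module.finrank k ((twoRed hqM π hπ).redSub V) := by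
  obtain ⟨w, H⟩ := exists_isON hqM π hπ
  rw [twoRed, SemiRed.toTwoRed_redSub, H.finrank_redSub V]

end Fermat.Agent.SS
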