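import Fermat.Agent.SS.Z1.Normal
import Fermat.Agent.RED.DRH.Model

/-!
# SS / (Z1): the semi-local reduction attached to two embeddings into Laurent series;
independence of `q`-th powers over a separating parameter
-/

set_option autoImplicit false
set_option linter.unusedSectionVars false
set_option linter.style.haveILetI false
noncomputable section
open Polynomial ModularCurve

namespace Fermat.Agent.SS

open Fermat.Agent.RED Fermat.Agent.RED.Gauss Fermat.Agent.RED.DRH Fermat.Agent.S24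

section SepPow

variable {k Fb : Type*} [Field k] [Field Fb] [Algebra k Fb]

/-- If `x` is a separating parameter and the `v i` are independent over `k[x]`, so are the
`(v i) ^ q`, `q` the characteristic exponent. -/
theorem indep_pow_of_isSepParam {x : Fb} (hx : IsSepParam k x) (q : ℕ) [ExpChar k q]
    {ι : Type*} [Fintype ι] (v : ι → Fb)
    (h : ∀ g : ι → k[X], ∑ i, aeval x (g i) * v i = 0 → ∀ i, g i = 0) :
    ∀ g : ι → k[X], ∑ i, aeval x (g i) * (v i) ^ q = 0 → ∀ i, g i = 0 := by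
  have ht := hx.transcendental
  letI := ratAlgebra ht
  letI := polyAlgebra k x
  haveI := isScalarTower_poly_rat ht
  haveI := isSeparable_rat hx
  haveI : ExpChar (RatFunc k) q :=
    expChar_of_injective_algebraMap (algebraMap k (RatFunc k)).injective q
  have hsm : ∀ (p : k[X]) (z : Fb), p • z = aeval x p * z := fun p z => by
    rw [Algebra.smul_def]; rfl
  have h1 : LinearIndependent k[X] v := by
    rw [Fintype.linearIndependent_iff]
    intro g hg
    apply h
    rw [← hg]
    exact Finset.sum_congr rfl fun i _ => (hsm _ _).symm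
  have h2 : LinearIndependent (RatFunc k) v :=
    (LinearIndependent.iff_fractionRing k[X] (RatFunc k)).mp h1
  have h3 := h2.map_pow_expChar_pow_of_isSeparable q 1
  have h4 : LinearIndependent k[X] (fun i => v i ^ q ^ 1) :=
    (LinearIndependent.iff_fractionRing k[X] (RatFunc k)).mpr h3
  rw [Fintype.linearIndependent_iff] at h4
  intro g hg
  apply h4
  rw [← hg]
  exact Finset.sum_congr rfl fun i _ => by rw [hsm, pow_one]

end SepPow

variable {L : Type*} [Field L] {A : ValuationSubring L} {k : Type*} [Field k]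

theorem inv_mem_bigO (π : A →+* k) {y : LaurentSeries L} (hy : y ∈ bigO π)
    (h : bigRed π ⟨y, hy⟩ ≠ 0) : y⁻¹ ∈ bigO π := by
  obtain ⟨a, b, hb, hab⟩ := id hy
  rw [bigRed_eq π ⟨y, hy⟩ hb hab] at h
  have ha : pi π a ≠ 0 := by
    intro h0; rw [h0, zero_div] at h; exact h rfl
  have hy0 : y ≠ 0 := by
    rintro rfl
    rw [zero_mul] at hab
    exact iota_ne_zero_of_pi_ne_zero π ha hab.symm
  exact ⟨b, a, ha, by rw [← hab, inv_mul_cancel_left₀ hy0]⟩

variable (π : A →+* k) {F : Type*} [Field F] [Algebra L F] (e₁ e₂ : F →ₐ[L] LaurentSeries L)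

/-- the ring `{y | e₁ y, e₂ y ∈ bigO}` -/
def embO : Subring F :=
  (bigO π).comap (e₁ : F →+* LaurentSeries L) ⊓ (bigO π).comap (e₂ : F →+* LaurentSeries L)

/-- first component -/
def embR₁ : embO π e₁ e₂ →+* bigO π :=
  ((e₁ : F →+* LaurentSeries L).comp (embO π e₁ e₂).subtype).codRestrict (bigO π)
    (fun y => y.2.1)

/-- second component -/
def embR₂ : embO π e₁ e₂ →+* bigO π :=
  ((e₂ : F →+* LaurentSeries L).comp (embO π e₁ e₂).subtype).codRestrict (bigO π)
    (fun y => y.2.2)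

theorem algebraMap_eq_iota (c : A) :
    algebraMap L (LaurentSeries L) (c : L) = iota A (cA A c) := (iota_cA A c).symm

/-- The semi-local reduction attached to two embeddings into `L((q))`. -/
def ofEmb : SemiRed π F (LaurentSeries k × LaurentSeries k) where
  O := embO π e₁ e₂
  red := RingHom.prod ((bigRed π).comp (embR₁ π e₁ e₂)) ((bigRed π).comp (embR₂ π e₁ e₂))
  inv_mem := by
    intro x hx
    rw [Prod.isUnit_iff] at hx
    refine ⟨?_, ?_⟩
    · show e₁ (x : F)⁻¹ ∈ bigO π
      rw [map_inv₀]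
      exact inv_mem_bigO π x.2.1 hx.1.ne_zero
    · show e₂ (x : F)⁻¹ ∈ bigO π
      rw [map_inv₀]
      exact inv_mem_bigO π x.2.2 hx.2.ne_zero
  const_mem := by
    intro a
    refine ⟨?_, ?_⟩
    · show e₁ (algebraMap L F (a : L)) ∈ bigO π
      rw [AlgHom.commutes, algebraMap_eq_iota]; exact iota_mem_bigO π _
    · show e₂ (algebraMap L F (a : L)) ∈ bigO π
      rw [AlgHom.commutes, algebraMap_eq_iota]; exact iota_mem_bigO π _
  red_const := by
    intro a
    apply Prod.ext
    · show bigRed π ⟨e₁ (algebraMap L F (a : L)), _⟩ = algebraMap k (LaurentSeries k) (π a)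
      rw [bigRed_eq π _ (a := cA A a) (b := 1) (by simp)
        (by simp only [map_one, mul_one, AlgHom.commutes, algebraMap_eq_iota]), pi_cA]
      simp
    · show bigRed π ⟨e₂ (algebraMap L F (a : L)), _⟩ = algebraMap k (LaurentSeries k) (π a)
      rw [bigRed_eq π _ (a := cA A a) (b := 1) (by simp)
        (by simp only [map_one, mul_one, AlgHom.commutes, algebraMap_eq_iota]), pi_cA]
      simp

variable {π e₁ e₂}

theorem mem_ofEmb_O {y : F} : y ∈ (ofEmb π e₁ e₂).O ↔ e₁ y ∈ bigO π ∧ e₂ y ∈ bigO π := Iff.rfl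

theorem ofEmb_rd {y : F} (h₁ : e₁ y ∈ bigO π) (h₂ : e₂ y ∈ bigO π) :
    (ofEmb π e₁ e₂).rd y = (bigRed π ⟨e₁ y, h₁⟩, bigRed π ⟨e₂ y, h₂⟩) :=
  (ofEmb π e₁ e₂).rd_of_mem (y := y) ⟨h₁, h₂⟩

theorem mem_ofEmb_O_of_iota {y : F} {a b : LaurentSeries A} (h₁ : e₁ y = iota A a)
    (h₂ : e₂ y = iota A b) : y ∈ (ofEmb π e₁ e₂).O :=
  ⟨by show e₁ y ∈ bigO π; rw [h₁]; exact iota_mem_bigO π a,
    by show e₂ y ∈ bigO π; rw [h₂]; exact iota_mem_bigO π b⟩

theorem ofEmb_rd_of_iota {y : F} {a b : LaurentSeries A} (h₁ : e₁ y = iota A a)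
    (h₂ : e₂ y = iota A b) : (ofEmb π e₁ e₂).rd y = (pi π a, pi π b) := by
  have h := mem_ofEmb_O_of_iota (π := π) h₁ h₂
  rw [ofEmb_rd h.1 h.2]
  apply Prod.ext
  · show bigRed π ⟨e₁ y, _⟩ = pi π a
    rw [bigRed_eq π _ (a := a) (b := 1) (by simp) (by simp [h₁])]; simp
  · show bigRed π ⟨e₂ y, _⟩ = pi π b
    rw [bigRed_eq π _ (a := b) (b := 1) (by simp) (by simp [h₂])]; simp

end Fermat.Agent.SS
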