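import Fermat.Agent.SS.Z1.Transport
import Fermat.Agent.SS.Nodal.Defs

/-!
# SS / (Z1): the fields of `KronData` for the two reductions at level `M * q`
-/

set_option autoImplicit false
set_option linter.unusedSectionVars false
set_option linter.style.haveILetI false
noncomputable section
open Polynomial ModularCurve IntermediateField AlgebraicCurve

namespace Fermat.Agent.SS

open Fermat.Agent.RED Fermat.Agent.RED.Gauss Fermat.Agent.S24 Fermat.Agent.S28
open Fermat.Agent.RED.Cusp (Fb jb)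

section General

variable {K F : Type*} [Field K] [Field F] [Algebra K F]

theorem finrank_adjoin_apply (σ : F →ₐ[K] F) (hσ : Function.Surjective σ) (x : F) :
    Module.finrank K⟮σ x⟯ F = Module.finrank K⟮x⟯ F := by
  have h1 : K⟮σ x⟯ = K⟮x⟯.map σ := by rw [adjoin_map, Set.image_singleton]
  have h2 : (⊤ : IntermediateField K F) = (⊤ : IntermediateField K F).map σ := by
    rw [← AlgHom.fieldRange_eq_map, AlgHom.fieldRange_eq_top.mpr hσ]
  rw [← relfinrank_top_right, ← relfinrank_top_right, h1]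
  conv_lhs => rw [h2]
  rw [relfinrank_map_map]

theorem isIntegralElem_of_pow {Λ : Type*} [CommRing Λ] [Algebra K Λ] {y s : Λ} (q : ℕ)
    (h : (aeval (y ^ q) : K[X] →ₐ[K] Λ).toRingHom.IsIntegralElem s) :
    (aeval y : K[X] →ₐ[K] Λ).toRingHom.IsIntegralElem s := by
  have h2 : (aeval (y ^ q) : K[X] →ₐ[K] Λ).toRingHom =
      (aeval y : K[X] →ₐ[K] Λ).toRingHom.comp (expand K q : K[X] →ₐ[K] K[X]).toRingHom := by
    refine RingHom.ext fun r => ?_
    exact (expand_aeval q r y).symm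
  rw [h2] at h
  exact h.of_comp

theorem mem_L_polar_iff {x₀ : F} (hx₀ : IsSepParam K x₀) {x : F} (hx : x ≠ 0) (a : ℕ) (u : F) :
    u ∈ riemannRochSpace (a • polarDiv K x) ↔
      (aeval x : K[X] →ₐ[K] F).toRingHom.IsIntegralElem u ∧
      (aeval x⁻¹ : K[X] →ₐ[K] F).toRingHom.IsIntegralElem (u * x⁻¹ ^ a) := by
  have := mem_L_chart_iff hx₀ x (0 : K) (by rwa [map_zero, sub_zero]) a 0 u
  simpa only [map_zero, sub_zero, zero_smul, add_zero, pow_zero, mul_one] using this

end General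

variable {M q : ℕ} [NeZero M] [hq : Fact q.Prime] (hqM : ¬ q ∣ M)
variable {A : ValuationSubring Kb} {k : Type*} [Field k]
variable (π : A →+* k) [CharP k q] [IsAlgClosed k] (hπ : Function.Surjective π)

/-- `j` -/
def jT : (twoRed hqM π hπ).O := ⟨jF (M * q), by rw [twoRed_O]; exact jF_mem hqM π⟩

/-- `j(qτ)` -/
def jT' : (twoRed hqM π hπ).O := ⟨jF' M q, by rw [twoRed_O]; exact jF'_mem hqM π hπ⟩

theorem red_jT : (twoRed hqM π hπ).red (jT hqM π hπ) = (jb k M, jb k M ^ q) := by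
  rw [twoRed_red]; exact rd_jF' hqM π hπ

theorem red_jT' : (twoRed hqM π hπ).red (jT' hqM π hπ) = (jb k M ^ q, jb k M) := by
  rw [twoRed_red]; exact rd_jF'' hqM π hπ

theorem sep_jT : IsSepParam Kb ((jT hqM π hπ : (twoRed hqM π hπ).O) : FN (M * q)) :=
  RB.isSepParam_jF (M * q)

include hqM in
theorem sep_jb : IsSepParam k (jb k M) := Cusp.isSepParam_jb M k q hqM

include hqM in
theorem degree_polarDiv_jb : Divisor.degree (polarDiv k (jb k M)) = (dedekindPsi M : ℤ) := by
  rw [(sep_jb (k := k) hqM).degree_polarDiv, Cusp.finrank_jb M k q hqM]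

include hqM in
theorem degree_polarDiv_jF :
    Divisor.degree (polarDiv Kb (jF (M * q))) = ((q : ℤ) + 1) * (dedekindPsi M : ℤ) := by
  rw [(RB.isSepParam_jF (M * q)).degree_polarDiv, RB.finrank_jF,
    S20.dedekindPsi_mul_prime_of_not_dvd (NeZero.ne M) hq.out hqM]
  push_cast; ring

include hqM in
theorem jF'_not_mem_range : jF' M q ∉ Set.range (algebraMap Kb (FN (M * q))) := by
  rintro ⟨c, hc⟩
  have h1 := congrArg (swAlg M q hqM) hc
  rw [AlgHom.commutes, swAlg_jF'] at h1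
  have ht := (RB.isSepParam_jF (M * q)).transcendental
  exact ht (h1 ▸ isAlgebraic_algebraMap c)

include hqM in
theorem degree_polarDiv_jF' :
    Divisor.degree (polarDiv Kb (jF' M q)) = ((q : ℤ) + 1) * (dedekindPsi M : ℤ) := by
  rw [(RB.isSepParam_jF (M * q)).degree_polarDiv_of_not_mem_range (jF'_not_mem_range hqM),
    ← swAlg_jF hqM, finrank_adjoin_apply _ (swAlg_surjective hqM), RB.finrank_jF,
    S20.dedekindPsi_mul_prime_of_not_dvd (NeZero.ne M) hq.out hqM]
  push_cast; ring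

/-- [DEG] -/
theorem deg_jT : Divisor.degree (polarDiv Kb ((jT hqM π hπ : (twoRed hqM π hπ).O) : FN (M * q))) =
    (q + 1) * Divisor.degree (polarDiv k (jb k M)) := by
  rw [degree_polarDiv_jb hqM]; exact degree_polarDiv_jF hqM

theorem deg_jT' :
    Divisor.degree (polarDiv Kb ((jT' hqM π hπ : (twoRed hqM π hπ).O) : FN (M * q))) =
    (q + 1) * Divisor.degree (polarDiv k (jb k M)) := by
  rw [degree_polarDiv_jb hqM]; exact degree_polarDiv_jF' hqM

/-- [FR] the `k`-linear Frobenius `a(T) ↦ a(T^q)` of `Fb` -/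
def FrAlg (M q : ℕ) [NeZero M] [Fact q.Prime] (k : Type*) [Field k] [CharP k q] [IsAlgClosed k] :
    Fb k M →ₐ[k] Fb k M where
  toFun a := FrB a
  map_one' := Subtype.ext (map_one (qExpand k q))
  map_mul' _ _ := Subtype.ext (map_mul (qExpand k q) _ _)
  map_zero' := Subtype.ext (map_zero (qExpand k q))
  map_add' _ _ := Subtype.ext (map_add (qExpand k q) _ _)
  commutes' c := Subtype.ext ((qExpandAlgHomC k q).commutes c)

theorem FrAlg_apply (a : Fb k M) : FrAlg M q k a = FrB a := rfl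

theorem FrAlg_jb : FrAlg M q k (jb k M) = jb k M ^ q := FrB_jb

theorem FrAlg_pow (a : Fb k M) : ∃ b : Fb k M, FrAlg M q k (FrAlg M q k a) = b ^ (q ^ 2) := by
  set τ : k →+* k := ((frobeniusEquiv k q).symm : k →+* k) with hτ
  refine ⟨⟨coeffMap τ (coeffMap τ (a : LaurentSeries k)),
    FrobK.coeffMap_mem_fullC _ (FrobK.coeffMap_mem_fullC _ a.2)⟩, Subtype.ext ?_⟩
  show qExpand k q (qExpand k q (a : LaurentSeries k)) = (coeffMap τ (coeffMap τ _)) ^ (q ^ 2)
  rw [FrobK.qExpand_char_eq k q (a : LaurentSeries k), FrobK.qExpand_char_eq k q, map_pow,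
    ← pow_mul, sq]

include hqM in
theorem FrAlg_mem (n : ℕ) (a : Fb k M) (ha : a ∈ riemannRochSpace (n • polarDiv k (jb k M))) :
    FrAlg M q k a ∈ riemannRochSpace ((n * q) • polarDiv k (jb k M)) := by
  have hs := sep_jb (k := k) hqM
  have ht0 : jb k M ≠ 0 := by
    intro h0
    exact hs.transcendental (h0 ▸ isAlgebraic_zero)
  obtain ⟨I1, I2⟩ := (mem_L_polar_iff hs ht0 n a).mp ha
  have J1 := isIntegralElem_map (FrAlg M q k) I1
  have J2 := isIntegralElem_map (FrAlg M q k) I2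
  rw [FrAlg_jb] at J1
  rw [map_inv₀, FrAlg_jb, ← inv_pow, map_mul, map_pow, map_inv₀, FrAlg_jb, ← inv_pow,
    ← pow_mul, mul_comm q n] at J2
  exact (mem_L_polar_iff hs ht0 (n * q) _).mpr
    ⟨isIntegralElem_of_pow q J1, isIntegralElem_of_pow q J2⟩

include hπ in
/-- the centre of the second chart -/
theorem exists_centre : ∃ c : A, π c ^ (q ^ 2) ≠ π c := by
  classical
  have hne : (X ^ (q ^ 2) - X : k[X]) ≠ 0 := by
    intro h0
    have h1 := congrArg (fun p => p.coeff 1) h0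
    have hq2 : q ^ 2 ≠ 1 := by
      have := hq.out.two_le
      nlinarith
    simp [coeff_X_pow, hq2.symm] at h1
  obtain ⟨cb, hcb⟩ : ∃ cb : k, cb ∉ (X ^ (q ^ 2) - X : k[X]).roots.toFinset :=
    Infinite.exists_notMem_finset _
  obtain ⟨c, rfl⟩ := hπ cb
  refine ⟨c, fun h => hcb ?_⟩
  rw [Multiset.mem_toFinset, mem_roots hne, IsRoot.def]
  simp [h]

theorem red_const (c : A) (h : algebraMap Kb (FN (M * q)) (c : Kb) ∈ (twoRed hqM π hπ).O) :
    (twoRed hqM π hπ).red ⟨algebraMap Kb (FN (M * q)) (c : Kb), h⟩ =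
      (algebraMap k (Fb k M) (π c), algebraMap k (Fb k M) (π c)) := by
  rw [twoRed_red]
  exact (RR hqM π hπ).rd_const c

/-- [POLE] -/
theorem pole_twoRed (c : A) (a b : ℕ) (u : (twoRed hqM π hπ).O)
    (hL : (u : FN (M * q)) ∈ riemannRochSpace (a • polarDiv Kb (jF (M * q)) +
      b • polarDiv Kb (jF (M * q) - algebraMap Kb (FN (M * q)) (c : Kb))⁻¹)) :
    ((twoRed hqM π hπ).red u).1 ∈ riemannRochSpace (a • polarDiv k (jb k M) +
      b • polarDiv k (jb k M - algebraMap k (Fb k M) (π c))⁻¹) ∧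
    ((twoRed hqM π hπ).red u).2 ∈ riemannRochSpace (a • polarDiv k (jb k M ^ q) +
      b • polarDiv k (jb k M ^ q - algebraMap k (Fb k M) (π c))⁻¹) := by
  obtain ⟨w, H⟩ := exists_isON hqM π hπ
  have hu : (u : FN (M * q)) ∈ (RR hqM π hπ).O := by rw [← twoRed_O]; exact u.2
  have h1 := H.pole_comp (AlgHom.fst k (Fb k M) (Fb k M)) (RB.isSepParam_jF (M * q))
    (sep_jb (k := k) hqM) c a b hu hL
  have h2 := H.pole_comp (AlgHom.snd k (Fb k M) (Fb k M)) (RB.isSepParam_jF (M * q))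
    (sep_jb (k := k) hqM) c a b hu hL
  rw [rd_jF'] at h1 h2
  rw [twoRed_red]
  exact ⟨h1, h2⟩

theorem pole'_twoRed (a : ℕ) (u : (twoRed hqM π hπ).O)
    (hL : (u : FN (M * q)) ∈ riemannRochSpace (a • polarDiv Kb (jF' M q))) :
    ((twoRed hqM π hπ).red u).2 ∈ riemannRochSpace (a • polarDiv k (jb k M)) := by
  obtain ⟨w, H⟩ := exists_isON' hqM π hπ
  have hu : (u : FN (M * q)) ∈ (RR hqM π hπ).O := by rw [← twoRed_O]; exact u.2
  have h2 := H.pole_comp₀ (AlgHom.snd k (Fb k M) (Fb k M)) (RB.isSepParam_jF (M * q))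
    (sep_jb (k := k) hqM) a hu hL
  rw [rd_jF''] at h2
  rw [twoRed_red]
  exact h2

end Fermat.Agent.SS
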