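import Fermat.Agent.SS.Z1.LevelON
import Fermat.Agent.SS.Z1.ON2

/-!
# SS / (Z1): the two-sided Gauss datum at level `M * q` with values in `Fb × Fb`
-/

set_option autoImplicit false
set_option linter.unusedSectionVars false
set_option linter.style.haveILetI false
noncomputable section
open Polynomial ModularCurve IntermediateField

namespace Fermat.Agent.SS

open Fermat.Agent.RED Fermat.Agent.RED.Gauss Fermat.Agent.S24 Fermat.Agent.S28
open Fermat.Agent.RED.Cusp (Fb jb)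

section Abstract

variable {L : Type*} [Field L] {A : ValuationSubring L} {k : Type*} [Field k] {π : A →+* k}
  {F : Type*} [Field F] [Algebra L F] {Fb : Type*} [Field Fb] [Algebra k Fb]

/-- surjectivity of the reduction onto `Fb × Fb` from the graph of Frobenius and its transpose -/
theorem SemiRed.surjective_of_frob (R : SemiRed π F (Fb × Fb)) (Fr : Fb → Fb)
    (hFr0 : ∀ a, a ≠ 0 → Fr a ≠ 0) (h1 : ∀ a, ∃ x : R.O, R.red x = (a, Fr a))
    (h2 : ∀ a, ∃ x : R.O, R.red x = (Fr a, a)) (a₁ : Fb) (hne : a₁ ≠ Fr (Fr a₁)) :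
    Function.Surjective R.red := by
  set a₀ := a₁ - Fr (Fr a₁) with ha₀
  have ha₀0 : a₀ ≠ 0 := sub_ne_zero.mpr hne
  obtain ⟨x₁, hx₁⟩ := h1 a₁
  obtain ⟨x₂, hx₂⟩ := h2 (Fr a₁)
  obtain ⟨x₃, hx₃⟩ := h1 a₀
  have hu : IsUnit (R.red x₃) := by
    rw [hx₃, Prod.isUnit_iff]
    exact ⟨IsUnit.mk0 _ ha₀0, IsUnit.mk0 _ (hFr0 _ ha₀0)⟩
  have hx₃0 : (x₃ : F) ≠ 0 := by
    intro h0
    have : x₃ = 0 := Subtype.ext h0
    rw [this, map_zero] at hu
    exact not_isUnit_zero hu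
  let y₃ : R.O := ⟨(x₃ : F)⁻¹, R.inv_mem x₃ hu⟩
  have hy₃ : R.red y₃ * R.red x₃ = 1 := by
    rw [← map_mul]
    have : y₃ * x₃ = 1 := Subtype.ext (inv_mul_cancel₀ hx₃0)
    rw [this, map_one]
  obtain ⟨e, he⟩ : ∃ e : R.O, R.red e = (1, 0) := by
    refine ⟨(x₁ - x₂) * y₃, ?_⟩
    have h3 : R.red (x₁ - x₂) = (a₀, 0) := by
      rw [map_sub, hx₁, hx₂]; simp [ha₀]
    have h4 := congrArg Prod.fst hy₃
    rw [hx₃] at h4
    simp only [Prod.fst_mul, Prod.fst_one] at h4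
    rw [map_mul, h3]
    apply Prod.ext
    · simp only [Prod.fst_mul]; rw [mul_comm]; exact h4
    · simp
  rintro ⟨a, b⟩
  obtain ⟨xa, hxa⟩ := h1 a
  obtain ⟨xb, hxb⟩ := h2 b
  refine ⟨xa * e + xb * (1 - e), ?_⟩
  rw [map_add, map_mul, map_mul, map_sub, map_one, he, hxa, hxb]
  apply Prod.ext <;> simp

end Abstract

variable (M q : ℕ) [NeZero M] [hq : Fact q.Prime] (hqM : ¬ q ∣ M)
variable {A : ValuationSubring Kb} (k : Type*) [Field k]

/-- `Fb × Fb → k((T)) × k((T))` -/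
def jj : Fb k M × Fb k M →ₐ[k] LaurentSeries k × LaurentSeries k :=
  AlgHom.prodMap (Fb k M).val (Fb k M).val

variable {M k}

theorem jj_apply (z : Fb k M × Fb k M) :
    jj M k z = ((z.1 : LaurentSeries k), (z.2 : LaurentSeries k)) := rfl

theorem jj_injective : Function.Injective (jj M k) := by
  rintro ⟨a, b⟩ ⟨c, d⟩ h
  rw [jj_apply, jj_apply, Prod.mk.injEq] at h
  exact Prod.ext (Subtype.ext h.1) (Subtype.ext h.2)

theorem jj_isUnit (z : Fb k M × Fb k M) (h : IsUnit (jj M k z)) : IsUnit z := by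
  rw [jj_apply, Prod.isUnit_iff] at h
  rw [Prod.isUnit_iff]
  refine ⟨IsUnit.mk0 _ fun h0 => h.1.ne_zero ?_, IsUnit.mk0 _ fun h0 => h.2.ne_zero ?_⟩
  · simp [h0]
  · simp [h0]

theorem mem_range_jj {x y : LaurentSeries k} (hx : x ∈ Fb k M) (hy : y ∈ Fb k M) :
    (x, y) ∈ (jj M k).range := ⟨(⟨x, hx⟩, ⟨y, hy⟩), rfl⟩

variable {q} (π : A →+* k) [CharP k q] [IsAlgClosed k] (hπ : Function.Surjective π)

include hπ in
theorem red_mem_range (x : (R₀ M q hqM π).O) : (R₀ M q hqM π).red x ∈ (jj M k).range := by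
  obtain ⟨u, h⟩ := exists_isCoreExt M q hqM
  have hn : Fintype.card (Q M) = dedekindPsi M := by
    rw [← Nat.card_eq_fintype_card]; exact S20.card_quotient_Gamma0 M
  have hJ : jqModC k ∈ Fb k M := jqModC_mem_full k M
  have hU : castLS k u ∈ Fb k M := castLS_mem_fullC h
  refine (isON₀ hqM π h hπ hn).red_mem_range jj_isUnit ?_ ?_ x
  · rw [rd_jF]; exact mem_range_jj hJ (pow_mem hJ q)
  · intro i
    rw [rd_wF]
    exact mem_range_jj (mul_mem (pow_mem hU _) (pow_mem (pow_mem hJ q) _))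
      (mul_mem (pow_mem (pow_mem hU q) _) (pow_mem hJ _))

/-- **The two-sided Gauss datum** at level `M * q`. -/
def RR : SemiRed π (FN (M * q)) (Fb k M × Fb k M) :=
  (R₀ M q hqM π).pull (jj M k) jj_injective (red_mem_range hqM π hπ)

theorem mem_RR_O {y : FN (M * q)} :
    y ∈ (RR hqM π hπ).O ↔ emb₁ M q y ∈ bigO π ∧ emb₂ M q hqM y ∈ bigO π := Iff.rfl

theorem RR_O : (RR hqM π hπ).O = (R₀ M q hqM π).O := rfl

theorem jj_RR_rd (y : FN (M * q)) : jj M k ((RR hqM π hπ).rd y) = (R₀ M q hqM π).rd y :=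
  (R₀ M q hqM π).map_pull_rd (jj M k) jj_injective (red_mem_range hqM π hπ) y

theorem coe_RR_rd_fst (y : FN (M * q)) :
    (((RR hqM π hπ).rd y).1 : LaurentSeries k) = ((R₀ M q hqM π).rd y).1 :=
  congrArg Prod.fst (jj_RR_rd hqM π hπ y)

theorem coe_RR_rd_snd (y : FN (M * q)) :
    (((RR hqM π hπ).rd y).2 : LaurentSeries k) = ((R₀ M q hqM π).rd y).2 :=
  congrArg Prod.snd (jj_RR_rd hqM π hπ y)

theorem RR_rd_eq {y : FN (M * q)} {z : Fb k M × Fb k M}
    (h : (R₀ M q hqM π).rd y = ((z.1 : LaurentSeries k), (z.2 : LaurentSeries k))) :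
    (RR hqM π hπ).rd y = z :=
  jj_injective ((jj_RR_rd hqM π hπ y).trans h)

/-- the orthonormal basis -/
theorem isON {n : ℕ} {u : LaurentSeries ℤ} (h : IsCoreExt M q n u) (hn : n = dedekindPsi M) :
    (RR hqM π hπ).IsON (jF (M * q)) (wF h) :=
  (isON₀ hqM π h hπ hn).pull jj_injective (red_mem_range hqM π hπ) jj_isUnit

/-- existence of an orthonormal basis over `K(j)` -/
theorem exists_isON : ∃ w : Fin (dedekindPsi M) × Fin (q + 1) → FN (M * q),
    (RR hqM π hπ).IsON (jF (M * q)) w := by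
  obtain ⟨u, h⟩ := exists_isCoreExt M q hqM
  have hn : Fintype.card (Q M) = dedekindPsi M := by
    rw [← Nat.card_eq_fintype_card]; exact S20.card_quotient_Gamma0 M
  rw [hn] at h
  exact ⟨wF h, isON hqM π hπ h rfl⟩

theorem hasScale : (RR hqM π hπ).HasScale := by
  obtain ⟨w, H⟩ := exists_isON hqM π hπ
  exact H.hasScale

/-- `Fr : a(T) ↦ a(T^q)` on `Fb` -/
abbrev FrB (a : Fb k M) : Fb k M := FrobK.vMap k q M a

theorem rd_jF' : (RR hqM π hπ).rd (jF (M * q)) = (jb k M, jb k M ^ q) :=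
  RR_rd_eq hqM π hπ (rd_jF hqM π)

omit [CharP k q] [IsAlgClosed k] in
theorem bigRed_congr {y y' : LaurentSeries Kb} (h : y = y') (hy : y ∈ bigO π) (hy' : y' ∈ bigO π) :
    bigRed π ⟨y, hy⟩ = bigRed π ⟨y', hy'⟩ := by
  subst h; rfl

omit [CharP k q] [IsAlgClosed k] in
theorem alpha_mem₀ {f : FN M} (hf : (f : LaurentSeries Kb) ∈ bigO π) :
    heckeAlphaBar Kb M q f ∈ (R₀ M q hqM π).O := by
  rw [R₀, mem_ofEmb_O, emb₁_alpha, emb₂_alpha]
  exact ⟨hf, (compat_qExpand π q).mem_bigO hf⟩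

omit [CharP k q] [IsAlgClosed k] in
theorem beta_mem₀ {f : FN M} (hf : (f : LaurentSeries Kb) ∈ bigO π) :
    heckeBetaBar Kb M q f ∈ (R₀ M q hqM π).O := by
  rw [R₀, mem_ofEmb_O, emb₁_beta, emb₂_beta]
  exact ⟨(compat_qExpand π q).mem_bigO hf, hf⟩

omit [CharP k q] [IsAlgClosed k] in
theorem R₀_rd_alpha {f : FN M} (hf : (f : LaurentSeries Kb) ∈ bigO π) :
    (R₀ M q hqM π).rd (heckeAlphaBar Kb M q f) =
      (bigRed π ⟨f, hf⟩, qExpand k q (bigRed π ⟨f, hf⟩)) := by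
  have h := alpha_mem₀ hqM π hf
  rw [R₀, mem_ofEmb_O] at h
  rw [R₀, ofEmb_rd h.1 h.2, bigRed_congr π (emb₁_alpha M q f) h.1 hf,
    bigRed_congr π (emb₂_alpha M q hqM f) h.2 ((compat_qExpand π q).mem_bigO hf)]
  rw [(compat_qExpand π q).bigRed_map ⟨f, hf⟩]

omit [CharP k q] [IsAlgClosed k] in
theorem R₀_rd_beta {f : FN M} (hf : (f : LaurentSeries Kb) ∈ bigO π) :
    (R₀ M q hqM π).rd (heckeBetaBar Kb M q f) =
      (qExpand k q (bigRed π ⟨f, hf⟩), bigRed π ⟨f, hf⟩) := by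
  have h := beta_mem₀ hqM π hf
  rw [R₀, mem_ofEmb_O] at h
  rw [R₀, ofEmb_rd h.1 h.2, bigRed_congr π (emb₂_beta M q hqM f) h.2 hf,
    bigRed_congr π (emb₁_beta M q f) h.1 ((compat_qExpand π q).mem_bigO hf)]
  rw [(compat_qExpand π q).bigRed_map ⟨f, hf⟩]

end Fermat.Agent.SS
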