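import Fermat.Agent.SS.Z1.Level

/-!
# SS / (Z1): the orthonormal basis `α(u)^a β(j)^b` at level `M * q`
-/

set_option autoImplicit false
set_option linter.unusedSectionVars false
set_option linter.style.haveILetI false
noncomputable section
open Polynomial ModularCurve IntermediateField

namespace Fermat.Agent.SS

open Fermat.Agent.RED Fermat.Agent.RED.Gauss Fermat.Agent.S24 Fermat.Agent.S28
open Fermat.Agent.RED.Cusp (Fb jb)

variable {M q : ℕ} [NeZero M] [hq : Fact q.Prime] (hqM : ¬ q ∣ M)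
variable {A : ValuationSubring Kb} {k : Type*} [Field k] (π : A →+* k)
variable {n : ℕ} {u : LaurentSeries ℤ} (h : IsCoreExt M q n u)

/-- the core unit as an element of the function field of level `M` -/
def uF : FN M := ⟨castLS Kb u, castLS_mem_baseChange h⟩

theorem coe_uF_eq_iota : ((uF h : FN M) : LaurentSeries Kb) = iota A (castLS A u) := by
  rw [iota_castLS]; rfl

/-- the orthonormal basis -/
def wF (x : Fin n × Fin (q + 1)) : FN (M * q) :=
  heckeAlphaBar Kb M q (uF h) ^ (x.1 : ℕ) * heckeBetaBar Kb M q (jF M) ^ (x.2 : ℕ)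

theorem jF_mem : jF (M * q) ∈ (R₀ M q hqM π).O := by
  rw [← alpha_jF]; exact alpha_mem_of_iota hqM π coe_jF_eq_iota

theorem wF_mem (x : Fin n × Fin (q + 1)) : wF h x ∈ (R₀ M q hqM π).O :=
  (R₀ M q hqM π).O.mul_mem
    ((R₀ M q hqM π).O.pow_mem (alpha_mem_of_iota hqM π (coe_uF_eq_iota h)) _)
    ((R₀ M q hqM π).O.pow_mem (beta_mem_of_iota hqM π coe_jF_eq_iota) _)

variable [CharP k q]

theorem rd_jF : (R₀ M q hqM π).rd (jF (M * q)) = (jqModC k, jqModC k ^ q) := by
  rw [← alpha_jF, rd_alpha_of_iota hqM π coe_jF_eq_iota, pi_jqModC, qExpand_jqModC_char]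

theorem rd_wF (x : Fin n × Fin (q + 1)) :
    (R₀ M q hqM π).rd (wF h x) =
      (castLS k u ^ (x.1 : ℕ) * (jqModC k ^ q) ^ (x.2 : ℕ),
        (castLS k u ^ q) ^ (x.1 : ℕ) * jqModC k ^ (x.2 : ℕ)) := by
  have h1 := alpha_mem_of_iota hqM π (coe_uF_eq_iota (A := A) h)
  have h2 := beta_mem_of_iota hqM π (coe_jF_eq_iota (M := M) (A := A))
  rw [wF, (R₀ M q hqM π).rd_mul ((R₀ M q hqM π).O.pow_mem h1 _) ((R₀ M q hqM π).O.pow_mem h2 _),
    (R₀ M q hqM π).rd_pow h1, (R₀ M q hqM π).rd_pow h2,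
    rd_alpha_of_iota hqM π (coe_uF_eq_iota h), rd_beta_of_iota hqM π coe_jF_eq_iota,
    pi_jqModC, pi_castLS, qExpand_jqModC_char, qExpand_castLS_char]
  rfl

/-- the core unit in the residue function field -/
def ubF : Fb k M := ⟨castLS k u, castLS_mem_fullC h⟩

theorem coe_sum_aeval_jb {ι : Type*} [Fintype ι] (g : ι → k[X]) (v : ι → Fb k M) :
    ((∑ i, aeval (jb k M) (g i) * v i : Fb k M) : LaurentSeries k) =
      ∑ i, aeval (jqModC k) (g i) * (v i : LaurentSeries k) := by
  have h1 : ∀ p : k[X], ((aeval (jb k M) p : Fb k M) : LaurentSeries k) = aeval (jqModC k) p :=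
    fun p => (aeval_algHom_apply (Fb k M).val (jb k M) p).symm
  rw [AddSubmonoidClass.coe_finsetSum]
  exact Finset.sum_congr rfl fun i _ => by rw [← h1]; rfl

include hqM h in
/-- the powers of `ū ^ q` are independent over `k[j̄]` -/
theorem indep_pow_char [IsAlgClosed k] (g : Fin n → k[X])
    (hg : ∑ a, aeval (jqModC k) (g a) * (castLS k u ^ q) ^ (a : ℕ) = 0) : ∀ a, g a = 0 := by
  haveI : ExpChar k q := ExpChar.prime hq.out
  refine indep_pow_of_isSepParam (Cusp.isSepParam_jb M k q hqM) q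
    (fun a : Fin n => (ubF h : Fb k M) ^ (a : ℕ)) ?_ g ?_
  · intro g' hg'
    apply indep_field h.core k g'
    have := congrArg (Subtype.val) hg'
    rw [coe_sum_aeval_jb] at this
    exact this
  · apply Subtype.ext
    rw [coe_sum_aeval_jb]
    refine Eq.trans ?_ hg
    refine Finset.sum_congr rfl fun a _ => ?_
    show _ * ((castLS k u ^ (a : ℕ)) ^ q) = _
    rw [← pow_mul, ← pow_mul, mul_comm (a : ℕ) q]

theorem isOrtho [IsAlgClosed k] (hπ : Function.Surjective π) :
    (R₀ M q hqM π).IsOrtho (jF (M * q)) (wF h) where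
  surj := hπ
  t_mem := jF_mem hqM π
  w_mem := wF_mem hqM π h
  unit := by
    intro p hp
    rw [rd_jF, Prod.isUnit_iff, aeval_prod_fst, aeval_prod_snd]
    refine ⟨IsUnit.mk0 _ ?_, IsUnit.mk0 _ ?_⟩
    · intro h0
      exact hp (aeval_jqModC_injective k (h0.trans (map_zero _).symm))
    · intro h0
      simp only [] at h0
      rw [← expand_aeval] at h0
      have := aeval_jqModC_injective k (h0.trans (map_zero _).symm)
      exact hp ((expand_eq_zero hq.out.pos).mp this)
  indep := by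
    intro f hf
    rw [rd_jF] at hf
    simp only [rd_wF] at hf
    have e1 := congrArg Prod.fst hf
    have e2 := congrArg Prod.snd hf
    rw [Prod.fst_sum] at e1
    rw [Prod.snd_sum] at e2
    simp only [Prod.fst_mul, Prod.snd_mul, aeval_prod_fst, aeval_prod_snd, Prod.fst_zero,
      Prod.snd_zero] at e1 e2
    exact kron_indep hq.out.one_lt (jqModC k) (castLS k u) (indep_field h.core k)
      (indep_pow_char hqM h) f e1 e2

theorem isON₀ [IsAlgClosed k] (hπ : Function.Surjective π) (hn : n = dedekindPsi M) :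
    (R₀ M q hqM π).IsON (jF (M * q)) (wF h) := by
  haveI := (RB.isSepParam_jF (M * q)).finite
  refine (isOrtho hqM π h hπ).isON_of_card_eq_finrank ?_
  rw [RB.finrank_jF, S20.dedekindPsi_mul_prime_of_not_dvd (NeZero.ne M) hq.out hqM,
    Fintype.card_prod, Fintype.card_fin, Fintype.card_fin, hn, mul_comm]

end Fermat.Agent.SS
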