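import Fermat.Agent.SS.Z1.Semi

/-!
# SS / (Z1): normal form, scaling, membership in `O`, kernel of the reduction
-/

set_option autoImplicit false
noncomputable section
open Polynomial

namespace Fermat.Agent.SS

open Fermat.Agent.RED.Gauss

variable {L : Type*} [Field L] {A : ValuationSubring L} {k : Type*} [Field k]
variable {π : A →+* k} {F : Type*} [Field F] [Algebra L F] {Λ : Type*} [CommRing Λ] [Algebra k Λ]

namespace SemiRed

variable {R : SemiRed π F Λ} {ι : Type*} [Fintype ι] {t : F} {w : ι → F}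

namespace IsOrtho

variable (H : R.IsOrtho t w)
include H

theorem isUnit_rd_evF {P : A[X]} (hP : P.map π ≠ 0) : IsUnit (R.rd (evF t P)) := by
  rw [R.rd_evF H.t_mem]; exact H.unit _ hP

theorem rd_cmb_ne_zero {p : ι → A[X]} (hp : ∃ i, (p i).map π ≠ 0) : R.rd (cmb t w p) ≠ 0 := by
  intro h0
  rw [R.rd_cmb H.t_mem H.w_mem] at h0
  obtain ⟨i, hi⟩ := hp
  exact hi (H.indep _ h0 i)

theorem cmb_ne_zero {p : ι → A[X]} (hp : ∃ i, (p i).map π ≠ 0) : cmb t w p ≠ 0 :=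
  fun h => H.rd_cmb_ne_zero hp (by rw [h, R.rd_zero])

omit H in
theorem exists_norm_poly (π : A →+* k) (t : F) {g : L[X]} (hg : g ≠ 0) :
    ∃ (c : L) (P : A[X]), c ≠ 0 ∧ P.map π ≠ 0 ∧ aeval t g = algebraMap L F c * evF t P := by
  obtain ⟨c, p, hc, hp, ⟨_, hne⟩⟩ := exists_normalize π (fun _ : Unit => g) ⟨(), hg⟩
  refine ⟨c, p (), hc, hne, ?_⟩
  rw [evF, hp (), map_mul, aeval_C, ← mul_assoc, ← map_mul, mul_inv_cancel₀ hc, map_one, one_mul]

omit H in
theorem exists_norm_comb (π : A →+* k) (t : F) (w : ι → F) {f : ι → L[X]} (hf : ∃ i, f i ≠ 0) :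
    ∃ (c : L) (p : ι → A[X]), c ≠ 0 ∧ (∃ i, (p i).map π ≠ 0) ∧
      ∑ i, aeval t (f i) * w i = algebraMap L F c * cmb t w p := by
  obtain ⟨c, p, hc, hp, hne⟩ := exists_normalize π f hf
  refine ⟨c, p, hc, hne, ?_⟩
  rw [cmb, Finset.mul_sum]
  refine Finset.sum_congr rfl fun i _ => ?_
  rw [evF, hp i, map_mul, aeval_C, ← mul_assoc, ← mul_assoc, ← map_mul, mul_inv_cancel₀ hc,
    map_one, one_mul]

/-- `w` is linearly independent over `L[t]`. -/
theorem eq_zero_of_sum_eq_zero {f : ι → L[X]} (hf : ∑ i, aeval t (f i) * w i = 0) :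
    ∀ i, f i = 0 := by
  by_contra hcon
  push Not at hcon
  obtain ⟨c, p, hc, hp, h⟩ := exists_norm_comb π t w hcon
  rw [hf] at h
  refine mul_ne_zero ?_ (H.cmb_ne_zero hp) h.symm
  rw [Ne, map_eq_zero]; exact hc

variable [Nontrivial Λ]

theorem evF_ne_zero {P : A[X]} (hP : P.map π ≠ 0) : evF t P ≠ 0 :=
  R.ne_zero_of_isUnit_rd (H.isUnit_rd_evF hP)

theorem aeval_ne_zero {g : L[X]} (hg : g ≠ 0) : aeval t g ≠ 0 := by
  obtain ⟨c, P, hc, hP, h⟩ := exists_norm_poly π t hg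
  rw [h]
  refine mul_ne_zero ?_ (H.evF_ne_zero hP)
  rw [Ne, map_eq_zero]; exact hc

theorem transcendental : Transcendental L t := by
  rw [transcendental_iff]
  intro p hp
  by_contra h0
  exact H.aeval_ne_zero h0 hp

theorem transcendental_rd : Transcendental k (R.rd t) := by
  rw [transcendental_iff]
  intro p hp
  by_contra h0
  have := H.unit p h0
  rw [hp] at this
  exact not_isUnit_zero this

/-- quotients `cmb / evF` are in `O` -/
theorem mem_of_mul_evF_eq {y : F} {P : A[X]} (hP : P.map π ≠ 0) {z : F} (hz : z ∈ R.O)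
    (h : y * evF t P = z) : y ∈ R.O := by
  have h1 : y = z * (evF t P)⁻¹ := by
    rw [← h, mul_assoc, mul_inv_cancel₀ (H.evF_ne_zero hP), mul_one]
  rw [h1]
  exact R.O.mul_mem hz (R.inv_mem' (R.evF_mem H.t_mem P) (H.isUnit_rd_evF hP))

theorem rd_mul_aeval_eq {y : F} {P : A[X]} (hP : P.map π ≠ 0) {z : F} (hz : z ∈ R.O)
    (h : y * evF t P = z) : R.rd y * aeval (R.rd t) (P.map π) = R.rd z := by
  rw [← R.rd_evF H.t_mem, ← R.rd_mul (H.mem_of_mul_evF_eq hP hz h) (R.evF_mem H.t_mem P), h]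

end IsOrtho

/-- every nonzero element can be scaled by a constant to an element of `O` with nonzero
reduction -/
def HasScale (R : SemiRed π F Λ) : Prop :=
  ∀ y : F, y ≠ 0 → ∃ (c : L) (y' : F), c ≠ 0 ∧ y' ∈ R.O ∧ R.rd y' ≠ 0 ∧ y = algebraMap L F c * y'

namespace IsON

variable [Nontrivial Λ] (H : R.IsON t w)
include H

/-- **normal form** -/
theorem exists_normalForm {y : F} (hy : y ≠ 0) :
    ∃ (c : L) (P : A[X]) (p : ι → A[X]), c ≠ 0 ∧ P.map π ≠ 0 ∧ (∃ i, (p i).map π ≠ 0) ∧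
      y * evF t P = algebraMap L F c * cmb t w p := by
  obtain ⟨g, f, hg, hgf⟩ := H.span y
  have hf : ∃ i, f i ≠ 0 := by
    by_contra hcon
    push Not at hcon
    have : aeval t g * y = 0 := by
      rw [hgf]; exact Finset.sum_eq_zero fun i _ => by rw [hcon i]; simp
    exact (mul_ne_zero (H.toIsOrtho.aeval_ne_zero hg) hy) this
  obtain ⟨c, P, hc, hP, h1⟩ := IsOrtho.exists_norm_poly π t hg
  obtain ⟨c', p, hc', hp, h2⟩ := IsOrtho.exists_norm_comb π t w hf
  refine ⟨c⁻¹ * c', P, p, mul_ne_zero (inv_ne_zero hc) hc', hP, hp, ?_⟩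
  rw [h1, h2] at hgf
  have hcL : algebraMap L F c ≠ 0 := by rw [Ne, map_eq_zero]; exact hc
  rw [map_mul, map_inv₀, mul_assoc, ← hgf]
  field_simp

/-- normal form, scaled -/
theorem exists_normalForm' {y : F} (hy : y ≠ 0) :
    ∃ (c : L) (y' : F) (P : A[X]) (p : ι → A[X]), c ≠ 0 ∧ P.map π ≠ 0 ∧
      (∃ i, (p i).map π ≠ 0) ∧ y = algebraMap L F c * y' ∧ y' * evF t P = cmb t w p := by
  obtain ⟨c, P, p, hc, hP, hp, h⟩ := H.exists_normalForm hy
  have hcL : algebraMap L F c ≠ 0 := by rw [Ne, map_eq_zero]; exact hc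
  refine ⟨c, (algebraMap L F c)⁻¹ * y, P, p, hc, hP, hp, ?_, ?_⟩
  · rw [mul_inv_cancel_left₀ hcL]
  · rw [mul_assoc, h, inv_mul_cancel_left₀ hcL]

theorem hasScale : R.HasScale := by
  intro y hy
  obtain ⟨c, y', P, p, hc, hP, hp, h1, h2⟩ := H.exists_normalForm' hy
  have hz := R.cmb_mem H.t_mem H.w_mem p
  refine ⟨c, y', hc, H.toIsOrtho.mem_of_mul_evF_eq hP hz h2, ?_, h1⟩
  intro h0
  have := H.toIsOrtho.rd_mul_aeval_eq hP hz h2
  rw [h0, zero_mul] at this
  exact H.toIsOrtho.rd_cmb_ne_zero hp this.symm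

end IsON

section Scale

variable (hπ : Function.Surjective π)
include hπ

/-- if `y = c y'` with `y' ∈ O` of nonzero reduction, then `y ∈ O ↔ c ∈ A` -/
theorem mem_O_iff_of_scale {y y' : F} {c : L} (hy' : y' ∈ R.O) (hr : R.rd y' ≠ 0)
    (h : y = algebraMap L F c * y') : y ∈ R.O ↔ c ∈ A := by
  constructor
  · intro hy
    by_contra hc
    have hc' : c⁻¹ ∈ A := (A.mem_or_inv_mem c).resolve_left hc
    have hc0 : c ≠ 0 := by rintro rfl; exact hc A.zero_mem
    have hcL : algebraMap L F c ≠ 0 := by rw [Ne, map_eq_zero]; exact hc0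
    have h1 : y' = algebraMap L F ((⟨c⁻¹, hc'⟩ : A) : L) * y := by
      rw [h, map_inv₀, inv_mul_cancel_left₀ hcL]
    apply hr
    rw [h1, R.rd_mul (R.const_mem _) hy, R.rd_const,
      residue_eq_zero_of_inv_not_mem hπ hc' (by rwa [inv_inv]), map_zero, zero_mul]
  · intro hc
    rw [h]
    exact R.O.mul_mem (R.const_mem ⟨c, hc⟩) hy'

theorem algebraMap_mem_O_iff [Nontrivial Λ] (c : L) : algebraMap L F c ∈ R.O ↔ c ∈ A :=
  mem_O_iff_of_scale hπ R.O.one_mem (by rw [R.rd_one]; exact one_ne_zero) (mul_one _).symm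

/-- the kernel of the reduction -/
theorem rd_eq_zero_iff (hS : R.HasScale) {y : F} (hy : y ∈ R.O) :
    R.rd y = 0 ↔ ∃ (c : A) (y' : F), π c = 0 ∧ y' ∈ R.O ∧ y = algebraMap L F (c : L) * y' := by
  constructor
  · intro h0
    rcases eq_or_ne y 0 with rfl | hy0
    · exact ⟨0, 0, map_zero _, R.O.zero_mem, by simp⟩
    obtain ⟨c, y', _, hy', hr, h⟩ := hS y hy0
    have hc : c ∈ A := (mem_O_iff_of_scale hπ hy' hr h).mp hy
    refine ⟨⟨c, hc⟩, y', ?_, hy', h⟩
    by_contra hne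
    rw [h, R.rd_mul (R.const_mem ⟨c, hc⟩) hy', R.rd_const] at h0
    apply hr
    have hu : IsUnit (algebraMap k Λ (π ⟨c, hc⟩)) := (IsUnit.mk0 _ hne).map _
    exact (hu.mul_right_eq_zero).mp h0
  · rintro ⟨c, y', hc, hy', rfl⟩
    rw [R.rd_mul (R.const_mem c) hy', R.rd_const, hc, map_zero, zero_mul]

end Scale

end SemiRed

end Fermat.Agent.SS
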