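import Fermat.Agent.RED.DRH.Model
import Fermat.Agent.RED.FF.Riemann

/-!
# SS / (Z1): dictionary between Riemann-Roch spaces `L(a (x)_∞ + b (x - c)_0)` and integrality
-/

set_option autoImplicit false
set_option linter.unusedSectionVars false
set_option linter.style.haveILetI false
noncomputable section
open Polynomial AlgebraicCurve

namespace Fermat.Agent.SS

open Fermat.Agent.RED Fermat.Agent.RED.DRH Fermat.Agent.S24

variable {K F : Type*} [Field K] [Field F] [Algebra K F] {x₀ : F}

theorem aeval_mem_place (v : Place K F) {y : F} (hy : y ∈ v.toValuationSubring) (p : K[X]) :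
    aeval y p ∈ v.toValuationSubring := by
  induction p using Polynomial.induction_on' with
  | add p q hp hq => rw [map_add]; exact v.toValuationSubring.add_mem _ _ hp hq
  | monomial n a =>
    rw [aeval_monomial]
    exact v.toValuationSubring.mul_mem _ _ (v.algebraMap_mem' a) (v.toValuationSubring.pow_mem hy n)

/-- integrality over `K[y]` is tested on the places where `y` is regular -/
theorem isIntegralElem_iff_forall_place (hx₀ : IsSepParam K x₀) (y f : F) :
    (aeval y : K[X] →ₐ[K] F).toRingHom.IsIntegralElem f ↔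
      ∀ v : Place K F, y ∈ v.toValuationSubring → f ∈ v.toValuationSubring := by
  letI := polyAlgebra K y
  haveI := isScalarTower_K_poly (K := K) y
  have h := isIntegral_iff_forall_place hx₀ K[X] f
  have h' : (aeval y : K[X] →ₐ[K] F).toRingHom.IsIntegralElem f ↔ IsIntegral K[X] f := Iff.rfl
  rw [h', h]
  refine forall_congr' fun v => ⟨fun H hy => H fun r => aeval_mem_place v hy r, fun H hr => H ?_⟩
  have := hr X
  have h2 : algebraMap K[X] F X = y := aeval_X y
  rwa [h2] at this

theorem ord_sub_const_of_not_mem (v : Place K F) {x : F} (h : x ∉ v.toValuationSubring) (c : K) :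
    v.ord x < 0 ∧ v.ord (x - algebraMap K F c) = v.ord x := by
  have hx0 : x ≠ 0 := by rintro rfl; exact h v.toValuationSubring.zero_mem
  have hlt : v.ord x < 0 := by
    by_contra hcon
    exact h ((Place.mem_iff_ord_nonneg v hx0).2 (not_lt.mp hcon))
  refine ⟨hlt, ?_⟩
  rcases eq_or_ne c 0 with rfl | hc
  · simp
  have hc' : -algebraMap K F c ≠ 0 := by simpa using hc
  rw [sub_eq_add_neg]
  apply Place.ord_add_eq_of_lt v hx0 hc'
  have h1 : v.ord (-algebraMap K F c) = 0 := by
    rw [← map_neg]; exact Place.ord_algebraMap v (-c)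
  rw [h1]
  exact hlt

theorem chart_apply (hx₀ : IsSepParam K x₀) (x y : F) (a b : ℕ) (v : Place K F) :
    (a • polarDiv K x + b • polarDiv K y⁻¹) v =
      a * max (-v.ord x) 0 + b * max (v.ord y) 0 := by
  rw [Finsupp.add_apply, Finsupp.smul_apply, Finsupp.smul_apply, hx₀.polarDiv_apply,
    hx₀.polarDiv_apply, v.ord_inv, neg_neg, nsmul_eq_mul, nsmul_eq_mul]

/-- **dictionary** -/
theorem mem_L_chart_iff (hx₀ : IsSepParam K x₀) (x : F) (c : K)
    (hy : x - algebraMap K F c ≠ 0) (a b : ℕ) (u : F) :
    u ∈ riemannRochSpace (a • polarDiv K x + b • polarDiv K (x - algebraMap K F c)⁻¹) ↔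
      (aeval x : K[X] →ₐ[K] F).toRingHom.IsIntegralElem (u * (x - algebraMap K F c) ^ b) ∧
      (aeval (x - algebraMap K F c)⁻¹ : K[X] →ₐ[K] F).toRingHom.IsIntegralElem
        (u * ((x - algebraMap K F c)⁻¹) ^ a) := by
  set y := x - algebraMap K F c with hydef
  rw [isIntegralElem_iff_forall_place hx₀, isIntegralElem_iff_forall_place hx₀]
  rcases eq_or_ne u 0 with rfl | hu
  · simp only [zero_mul]
    exact ⟨fun _ => ⟨fun v _ => v.toValuationSubring.zero_mem,
      fun v _ => v.toValuationSubring.zero_mem⟩, fun _ => Submodule.zero_mem _⟩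
  have hyV : ∀ v : Place K F, x ∈ v.toValuationSubring → y ∈ v.toValuationSubring := fun v hx =>
    v.toValuationSubring.sub_mem hx (v.algebraMap_mem' c)
  have hxV : ∀ v : Place K F, y ∈ v.toValuationSubring → x ∈ v.toValuationSubring := fun v hy' => by
    have : x = y + algebraMap K F c := by rw [hydef]; ring
    rw [this]
    exact v.toValuationSubring.add_mem _ _ hy' (v.algebraMap_mem' c)
  have ho1 : ∀ v : Place K F, v.ord (u * y ^ b) = v.ord u + b * v.ord y := fun v => by
    rw [v.ord_mul hu (pow_ne_zero _ hy), Place.ord_pow]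
  have ho2 : ∀ v : Place K F, v.ord (u * y⁻¹ ^ a) = v.ord u - a * v.ord y := fun v => by
    rw [v.ord_mul hu (pow_ne_zero _ (inv_ne_zero hy)), Place.ord_pow, v.ord_inv]; ring
  have hn1 : u * y ^ b ≠ 0 := mul_ne_zero hu (pow_ne_zero _ hy)
  have hn2 : u * y⁻¹ ^ a ≠ 0 := mul_ne_zero hu (pow_ne_zero _ (inv_ne_zero hy))
  rw [mem_L_iff_of_ne_zero hu]
  constructor
  · intro h
    refine ⟨fun v hx => ?_, fun v hyi => ?_⟩
    · rw [Place.mem_iff_ord_nonneg v hn1, ho1]
      have h1 := h v
      rw [chart_apply hx₀] at h1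
      have h2 := Place.ord_nonneg_of_mem v hx
      have h3 := Place.ord_nonneg_of_mem v (hyV v hx)
      rw [max_eq_right (by omega : -v.ord x ≤ 0), max_eq_left h3] at h1
      linarith
    · rw [Place.mem_iff_ord_nonneg v hn2, ho2]
      have h1 := h v
      rw [chart_apply hx₀] at h1
      have h4 := Place.ord_nonneg_of_mem v hyi
      rw [v.ord_inv] at h4
      by_cases hx : x ∈ v.toValuationSubring
      · have h2 := Place.ord_nonneg_of_mem v hx
        have h3 := Place.ord_nonneg_of_mem v (hyV v hx)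
        have h5 : v.ord y = 0 := by omega
        rw [max_eq_right (by omega : -v.ord x ≤ 0), h5] at h1
        rw [h5]
        simpa using h1
      · obtain ⟨h2, h3⟩ := ord_sub_const_of_not_mem v hx c
        rw [← hydef] at h3
        rw [max_eq_left (by omega : 0 ≤ -v.ord x), max_eq_right (by omega : v.ord y ≤ 0),
          ← h3] at h1
        linarith
  · rintro ⟨h1, h2⟩ v
    rw [chart_apply hx₀]
    by_cases hx : x ∈ v.toValuationSubring
    · have h3 := h1 v hx
      rw [Place.mem_iff_ord_nonneg v hn1, ho1] at h3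
      have h4 := Place.ord_nonneg_of_mem v (hyV v hx)
      rw [max_eq_left h4]
      have h5 : (0 : ℤ) ≤ a * max (-v.ord x) 0 :=
        mul_nonneg (Int.natCast_nonneg a) (le_max_right _ _)
      linarith
    · obtain ⟨h3, h4⟩ := ord_sub_const_of_not_mem v hx c
      rw [← hydef] at h4
      have hyi : y⁻¹ ∈ v.toValuationSubring :=
        (v.toValuationSubring.mem_or_inv_mem y).resolve_left fun h => hx (hxV v h)
      have h5 := h2 v hyi
      rw [Place.mem_iff_ord_nonneg v hn2, ho2] at h5
      rw [max_eq_left (by omega : 0 ≤ -v.ord x), max_eq_right (by omega : v.ord y ≤ 0), ← h4]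
      linarith

/-- integrality is preserved by algebra homomorphisms -/
theorem isIntegralElem_map {k Λ Λ' : Type*} [CommRing k] [CommRing Λ] [CommRing Λ'] [Algebra k Λ]
    [Algebra k Λ'] (φ : Λ →ₐ[k] Λ') {z s : Λ}
    (h : (aeval z : k[X] →ₐ[k] Λ).toRingHom.IsIntegralElem s) :
    (aeval (φ z) : k[X] →ₐ[k] Λ').toRingHom.IsIntegralElem (φ s) := by
  obtain ⟨p, hp, h0⟩ := h
  refine ⟨p, hp, ?_⟩
  have h1 := congrArg φ h0
  rw [map_zero] at h1
  rw [← h1]
  have h2 : (aeval (φ z) : k[X] →ₐ[k] Λ').toRingHom =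
      (φ : Λ →+* Λ').comp (aeval z : k[X] →ₐ[k] Λ).toRingHom := by
    refine RingHom.ext fun r => ?_
    exact aeval_algHom_apply φ z r
  rw [h2]
  exact (hom_eval₂ p _ (φ : Λ →+* Λ') s).symm

end Fermat.Agent.SS
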