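import Fermat.Agent.RED.Gauss.ON

/-!
# SS / (Z1): semi-local constant reductions with an orthonormal basis (abstract theory)

`L` is a field with a valuation ring `A` and residue map `π : A →+* k`.  A `SemiRed π F Λ` is a
subring `O` of the `L`-field `F` with a ring homomorphism `red : O →+* Λ` to a commutative
`k`-algebra `Λ` (in the application `Λ = Fb × Fb`), compatible with `π` on constants, such that
an element of `O` whose reduction is a unit is a unit of `O`.

`R.IsON t w` says that `w` is an "orthonormal basis" of `F` over `L(t)`.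
-/

set_option autoImplicit false
noncomputable section
open Polynomial

namespace Fermat.Agent.SS

open Fermat.Agent.RED.Gauss

variable {L : Type*} [Field L] {A : ValuationSubring L} {k : Type*} [Field k]

/-- A semi-local constant reduction. -/
structure SemiRed (π : A →+* k) (F : Type*) [Field F] [Algebra L F] (Λ : Type*) [CommRing Λ]
    [Algebra k Λ] where
  /-- the semi-local ring -/
  O : Subring F
  /-- the reduction map -/
  red : O →+* Λ
  inv_mem : ∀ x : O, IsUnit (red x) → (x : F)⁻¹ ∈ O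
  const_mem : ∀ a : A, algebraMap L F (a : L) ∈ O
  red_const : ∀ a : A, red ⟨algebraMap L F (a : L), const_mem a⟩ = algebraMap k Λ (π a)

variable {π : A →+* k} {F : Type*} [Field F] [Algebra L F] {Λ : Type*} [CommRing Λ] [Algebra k Λ]

namespace SemiRed

variable (R : SemiRed π F Λ)

open Classical in
/-- the reduction map as a total function (junk value `0` outside `O`) -/
def rd (y : F) : Λ := if h : y ∈ R.O then R.red ⟨y, h⟩ else 0

theorem rd_of_mem {y : F} (h : y ∈ R.O) : R.rd y = R.red ⟨y, h⟩ := dif_pos h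

theorem rd_coe (y : R.O) : R.rd (y : F) = R.red y := R.rd_of_mem y.2

theorem rd_zero : R.rd 0 = 0 := by
  rw [R.rd_of_mem R.O.zero_mem]; exact map_zero R.red

theorem rd_one : R.rd 1 = 1 := by
  rw [R.rd_of_mem R.O.one_mem]; exact map_one R.red

theorem rd_add {x y : F} (hx : x ∈ R.O) (hy : y ∈ R.O) : R.rd (x + y) = R.rd x + R.rd y := by
  rw [R.rd_of_mem hx, R.rd_of_mem hy, R.rd_of_mem (R.O.add_mem hx hy), ← map_add]; rfl

theorem rd_mul {x y : F} (hx : x ∈ R.O) (hy : y ∈ R.O) : R.rd (x * y) = R.rd x * R.rd y := by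
  rw [R.rd_of_mem hx, R.rd_of_mem hy, R.rd_of_mem (R.O.mul_mem hx hy), ← map_mul]; rfl

theorem rd_neg {x : F} (hx : x ∈ R.O) : R.rd (-x) = -R.rd x := by
  rw [R.rd_of_mem hx, R.rd_of_mem (R.O.neg_mem hx), ← map_neg]; rfl

theorem rd_sub {x y : F} (hx : x ∈ R.O) (hy : y ∈ R.O) : R.rd (x - y) = R.rd x - R.rd y := by
  rw [R.rd_of_mem hx, R.rd_of_mem hy, R.rd_of_mem (R.O.sub_mem hx hy), ← map_sub]; rfl

theorem rd_pow {x : F} (hx : x ∈ R.O) (n : ℕ) : R.rd (x ^ n) = R.rd x ^ n := by
  rw [R.rd_of_mem hx, R.rd_of_mem (R.O.pow_mem hx n), ← map_pow]; rfl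

theorem rd_sum {ι : Type*} (s : Finset ι) (f : ι → F) (hf : ∀ i ∈ s, f i ∈ R.O) :
    R.rd (∑ i ∈ s, f i) = ∑ i ∈ s, R.rd (f i) := by
  classical
  induction s using Finset.induction_on with
  | empty => simp [R.rd_zero]
  | insert a s ha ih =>
    rw [Finset.sum_insert ha, Finset.sum_insert ha,
      R.rd_add (hf a (Finset.mem_insert_self a s))
        (R.O.sum_mem fun i hi => hf i (Finset.mem_insert_of_mem hi)),
      ih fun i hi => hf i (Finset.mem_insert_of_mem hi)]

theorem rd_const (a : A) : R.rd (algebraMap L F (a : L)) = algebraMap k Λ (π a) := by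
  rw [R.rd_of_mem (R.const_mem a), R.red_const]

theorem inv_mem' {x : F} (hx : x ∈ R.O) (hu : IsUnit (R.rd x)) : x⁻¹ ∈ R.O :=
  R.inv_mem ⟨x, hx⟩ (by rwa [R.rd_of_mem hx] at hu)

theorem ne_zero_of_isUnit_rd [Nontrivial Λ] {x : F} (hu : IsUnit (R.rd x)) : x ≠ 0 := by
  rintro rfl
  rw [R.rd_zero] at hu
  exact not_isUnit_zero hu

theorem rd_inv_mul [Nontrivial Λ] {x : F} (hx : x ∈ R.O) (hu : IsUnit (R.rd x)) :
    R.rd x⁻¹ * R.rd x = 1 := by
  rw [← R.rd_mul (R.inv_mem' hx hu) hx, inv_mul_cancel₀ (R.ne_zero_of_isUnit_rd hu), R.rd_one]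

/-- evaluation of an integral polynomial -/
def evF (t : F) (p : A[X]) : F := aeval t (p.map A.subtype)

theorem evF_add (t : F) (p q : A[X]) : evF t (p + q) = evF t p + evF t q := by
  rw [evF, Polynomial.map_add, map_add]; rfl

theorem evF_mul (t : F) (p q : A[X]) : evF t (p * q) = evF t p * evF t q := by
  rw [evF, Polynomial.map_mul, map_mul]; rfl

theorem evF_monomial (t : F) (n : ℕ) (a : A) :
    evF t (monomial n a) = algebraMap L F (a : L) * t ^ n := by
  rw [evF, Polynomial.map_monomial, aeval_monomial]; rfl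

theorem evF_C (t : F) (a : A) : evF t (C a) = algebraMap L F (a : L) := by
  rw [evF, Polynomial.map_C, aeval_C]; rfl

theorem evF_X (t : F) : evF (A := A) t X = t := by
  rw [evF, Polynomial.map_X, aeval_X]

theorem evF_mem {t : F} (ht : t ∈ R.O) (p : A[X]) : evF t p ∈ R.O := by
  induction p using Polynomial.induction_on' with
  | add p q hp hq => rw [evF_add]; exact R.O.add_mem hp hq
  | monomial n a => rw [evF_monomial]; exact R.O.mul_mem (R.const_mem a) (R.O.pow_mem ht n)

theorem rd_evF {t : F} (ht : t ∈ R.O) (p : A[X]) :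
    R.rd (evF t p) = aeval (R.rd t) (p.map π) := by
  induction p using Polynomial.induction_on' with
  | add p q hp hq =>
    rw [evF_add, R.rd_add (R.evF_mem ht p) (R.evF_mem ht q), hp, hq, Polynomial.map_add, map_add]
  | monomial n a =>
    rw [evF_monomial, R.rd_mul (R.const_mem a) (R.O.pow_mem ht n), R.rd_const, R.rd_pow ht,
      Polynomial.map_monomial, aeval_monomial]

variable {ι : Type*} [Fintype ι]

/-- integral combination -/
def cmb (t : F) (w : ι → F) (p : ι → A[X]) : F := ∑ i, evF t (p i) * w i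

theorem cmb_mem {t : F} {w : ι → F} (ht : t ∈ R.O) (hw : ∀ i, w i ∈ R.O) (p : ι → A[X]) :
    cmb t w p ∈ R.O :=
  R.O.sum_mem fun i _ => R.O.mul_mem (R.evF_mem ht _) (hw i)

theorem rd_cmb {t : F} {w : ι → F} (ht : t ∈ R.O) (hw : ∀ i, w i ∈ R.O) (p : ι → A[X]) :
    R.rd (cmb t w p) = ∑ i, aeval (R.rd t) ((p i).map π) * R.rd (w i) := by
  rw [cmb, R.rd_sum _ _ fun i _ => R.O.mul_mem (R.evF_mem ht _) (hw i)]
  exact Finset.sum_congr rfl fun i _ => by rw [R.rd_mul (R.evF_mem ht _) (hw i), R.rd_evF ht]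

/-- `w` is orthonormal over `L(t)` (no spanning condition). -/
structure IsOrtho (t : F) (w : ι → F) : Prop where
  surj : Function.Surjective π
  t_mem : t ∈ R.O
  w_mem : ∀ i, w i ∈ R.O
  unit : ∀ p : k[X], p ≠ 0 → IsUnit (aeval (R.rd t) p)
  indep : ∀ f : ι → k[X], ∑ i, aeval (R.rd t) (f i) * R.rd (w i) = 0 → ∀ i, f i = 0

/-- `w` is an orthonormal basis of `F` over `L(t)`. -/
structure IsON (t : F) (w : ι → F) : Prop extends R.IsOrtho t w where
  span : ∀ y : F, ∃ (g : L[X]) (f : ι → L[X]), g ≠ 0 ∧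
    aeval t g * y = ∑ i, aeval t (f i) * w i

end SemiRed

end Fermat.Agent.SS
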